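import Fermat.Agent.PrincipalBlock.Kuelshammer
import Fermat.Agent.SuzukiCA.Induced

/-!
# The second main theorem for the principal block, and its consequences

On `u C(u)` an irreducible character of the principal block is the sum of its constituents in the
principal block of the centraliser, the others having none there.
-/

set_option autoImplicit false
set_option linter.style.haveILetI false

noncomputable section

open Finset FA.CharacterTheory FA.FrobeniusGroups FA.Thompson
open FA.SuzukiCA (res mult mult_spec)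
open scoped Classical

namespace FA.PrincipalBlock

variable {G : Type*} [Group G] [Fintype G] {p : ℕ} [hp : Fact p.Prime] {v : Place p}

omit hp in
/-- Reduction commutes with convolution. -/
theorem r_conv_congr {H : Type*} [Group H] [Fintype H] {f f' b : H → ℂ} (hf : ∀ h, f h ∈ v.O)
    (hf' : ∀ h, f' h ∈ v.O) (hb : ∀ h, b h ∈ v.O) (he : ∀ h, v.r (f h) = v.r (f' h)) (c : H) :
    v.r (conv f b c) = v.r (conv f' b c) := by
  simp only [conv]
  rw [v.r_sum _ fun h _ => mul_mem (hf h) (hb _), v.r_sum _ fun h _ => mul_mem (hf' h) (hb _)]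
  exact sum_congr rfl fun h _ => by rw [v.r_mul (hf h) (hb _), v.r_mul (hf' h) (hb _), he h]

omit hp in
theorem conv_aS_eq_zero {S T : Finset (G → ℂ)} (hS : S ⊆ irr G) (hT : T ⊆ irr G)
    (hd : Disjoint S T) : conv (aS S) (aS T) = 0 :=
  eq_of_omega (isCls_conv (isCls_aS hS) (isCls_aS hT)) (fun _ _ => rfl) fun χ hχ => by
    rw [omega_conv hχ (isCls_aS hT), omega_aS hS hχ, omega_aS hT hχ]
    have h0 : omega χ (0 : G → ℂ) = 0 := by simp [omega]
    rw [h0]
    split_ifs with h1 h2 <;> simp
    exact Finset.disjoint_left.1 hd h1 h2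

omit hp in
/-- Multiplying by a block idempotent keeps the constituents in the block. -/
theorem sum_aS_mul_res {C : Subgroup G} {T : Finset (C → ℂ)} (hT : T ⊆ irr C) {χ : G → ℂ}
    (hχ : χ ∈ irr G) (z : C) :
    ∑ c : C, aS T c * χ ((z * c : C) : G) = ∑ ψ ∈ T, (mult C χ ψ : ℂ) * ψ z := by
  have hres : ∀ y : C, χ (y : G) = ∑ ψ ∈ irr C, (mult C χ ψ : ℂ) * ψ y := fun y => by
    rw [show χ (y : G) = res C χ y from rfl, expansion (f := res C χ) (fun g x => ?_) y]
    · exact sum_congr rfl fun ψ hψ => by rw [pairing_comm, mult_spec hχ hψ]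
    · show χ ((g * x * g⁻¹ : C) : G) = χ x
      push_cast
      exact irr_conj hχ _ _
  have key : ∀ ψ ∈ irr C, ∑ c : C, aS T c * ψ (z * c) = if ψ ∈ T then ψ z else 0 := by
    intro ψ hψ
    have hsing : ({ψ} : Finset (C → ℂ)) ⊆ irr C := by simpa using hψ
    have h : conv (aS T) (aS {ψ}) = (if ψ ∈ T then (1 : ℂ) else 0) • aS {ψ} := by
      refine eq_of_omega (isCls_conv (isCls_aS hT) (isCls_aS hsing)) (fun g x => by
        rw [Pi.smul_apply, Pi.smul_apply, isCls_aS hsing g x]) fun φ hφ => ?_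
      rw [omega_conv hφ (isCls_aS hsing), omega_smul, omega_aS hsing hφ, omega_aS hT hφ]
      by_cases he : φ = ψ <;> simp [he]
    have h' := congrFun h z⁻¹
    simp only [conv, aS, coef, Pi.smul_apply, sum_singleton, mul_one, mul_inv_rev, inv_inv,
      smul_eq_mul] at h'
    have hne : (Nat.card C : ℂ)⁻¹ * ψ 1 ≠ 0 :=
      mul_ne_zero (inv_ne_zero (Nat.cast_ne_zero.2 Nat.card_pos.ne')) (irr_one_ne_zero hψ)
    refine mul_left_cancel₀ hne ?_
    rw [mul_sum]
    calc ∑ c : C, (Nat.card C : ℂ)⁻¹ * ψ 1 * (aS T c * ψ (z * c))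
        = ∑ c : C, aS T c * ((Nat.card C : ℂ)⁻¹ * (ψ 1 * ψ (z * c))) :=
          sum_congr rfl fun c _ => by ring
      _ = (if ψ ∈ T then (1 : ℂ) else 0) * ((Nat.card C : ℂ)⁻¹ * (ψ 1 * ψ z)) := by
          rw [← h']
          simp only [aS, coef, mul_one]
      _ = _ := by split_ifs <;> ring
  simp only [hres, mul_sum]
  rw [sum_comm, ← sum_subset hT fun ψ hψ hn => by
    rw [sum_congr rfl fun c _ => mul_left_comm (aS T c) _ _, ← mul_sum, key ψ hψ, if_neg hn,
      mul_zero]]
  refine sum_congr rfl fun ψ hψ => ?_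
  rw [sum_congr rfl fun c _ => mul_left_comm (aS T c) _ _, ← mul_sum, key ψ (hT hψ), if_pos hψ]

variable {u : G} (hu : PEl p u) (C : Subgroup G) (hC : ∀ g, g ∈ C ↔ g * u = u * g)

include hu hC

/-- **Brauer's second main theorem**: outside the principal block. -/
theorem second_main_not_prin {χ : G → ℂ} (hχ : χ ∈ irr G) (hn : χ ∉ prin G v) {s : C}
    (hs : Reg p s) :
    ∑ ψ ∈ prin C v, (mult C χ ψ : ℂ) * ψ (⟨u, (hC u).2 rfl⟩ * s) = 0 := by
  rw [← sum_aS_mul_res (good_prin (G := C) v).sub hχ]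
  have hG := (good_prin (G := G) v)
  have hC' := (good_prin (G := C) v)
  refine sum_aS_eq_zero hu C hC hG.compl hC' (fun c => ?_) s.2 (reg_coe.2 hs)
    (mem_sdiff.2 ⟨hχ, hn⟩)
  rw [r_conv_congr (fun h => hG.compl.cen.mem _) hC'.compl.cen.mem hC'.cen.mem (fun h => ?_),
    conv_aS_eq_zero sdiff_subset hC'.sub sdiff_disjoint, Pi.zero_apply, v.r_zero]
  rw [aS_compl hG.sub, aS_compl hC'.sub, Pi.sub_apply, Pi.sub_apply,
    v.r_sub (dlt_mem 1 _) (hG.cen.mem _), v.r_sub (dlt_mem 1 _) (hC'.cen.mem _),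
    r_aS_prin_centralizer hu C hC h]
  congr 2
  simp [dlt]

/-- **Brauer's second main theorem** for the principal block. -/
theorem second_main {χ : G → ℂ} (hχ : χ ∈ prin G v) {s : C} (hs : Reg p s) :
    χ (u * s) = ∑ ψ ∈ prin C v, (mult C χ ψ : ℂ) * ψ (⟨u, (hC u).2 rfl⟩ * s) := by
  have hG := (good_prin (G := G) v)
  have hC' := (good_prin (G := C) v)
  rw [← sum_aS_mul_res hC'.sub (hG.sub hχ)]
  have h0 : ∑ c : C, aS (irr C \ prin C v) c * χ (u * s * c) = 0 := by
    refine sum_aS_eq_zero hu C hC hG hC'.compl (fun c => ?_) s.2 (reg_coe.2 hs) hχ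
    rw [r_conv_congr (fun h => hG.cen.mem _) hC'.cen.mem hC'.compl.cen.mem
        (fun h => r_aS_prin_centralizer hu C hC h),
      conv_aS_eq_zero hC'.sub sdiff_subset disjoint_sdiff, Pi.zero_apply, v.r_zero]
  simp only [aS_compl hC'.sub, Pi.sub_apply, sub_mul, sum_sub_distrib, sub_eq_zero] at h0
  push_cast
  rw [← h0]
  simp [dlt]

omit hu hC

/-- **The principal block is trivial on normal subgroups of order prime to `p`.** -/
theorem prin_mul_mem {K : Subgroup G} [K.Normal] (hK : ¬ p ∣ Nat.card K) {χ : G → ℂ}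
    (hχ : χ ∈ prin G v) (x : G) {n : G} (hn : n ∈ K) : χ (x * n) = χ x := by
  have hχi := (good_prin (G := G) v).sub hχ
  have hK0 : (Nat.card K : ℂ) ≠ 0 := Nat.cast_ne_zero.2 Nat.card_pos.ne'
  set f : G → ℂ := fun g => if g ∈ K then (Nat.card K : ℂ)⁻¹ else 0 with hfdef
  have hfc : IsCen v f := ⟨fun g y => by
      simp only [hfdef, show g * y * g⁻¹ ∈ K ↔ y ∈ K from ⟨fun h => by
        have := ‹K.Normal›.conj_mem _ h g⁻¹
        simpa [mul_assoc] using this, fun h => ‹K.Normal›.conj_mem _ h g⟩],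
    fun g => by
      simp only [hfdef]
      split_ifs
      exacts [v.inv_natCast_mem hK, zero_mem _]⟩
  have hsum : ∀ F : G → ℂ, ∑ g, f g * F g = (Nat.card K : ℂ)⁻¹ * ∑ k : K, F k := fun F => by
    simp only [hfdef, ite_mul, zero_mul, ← sum_filter, ← mul_sum]
    rw [sum_subtype _ (p := (· ∈ K)) (by simp)]
  have hff : conv f f = f := funext fun g => by
    rw [conv, hsum fun h => f (h⁻¹ * g)]
    by_cases hg : g ∈ K
    · rw [sum_congr rfl fun (k : K) _ => show f ((k : G)⁻¹ * g) = (Nat.card K : ℂ)⁻¹ from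
        if_pos (K.mul_mem (K.inv_mem k.2) hg), sum_const, card_univ, nsmul_eq_mul,
        ← Nat.card_eq_fintype_card, inv_mul_cancel_left₀ hK0]
      exact (if_pos hg).symm
    · rw [sum_eq_zero fun (k : K) _ => show f ((k : G)⁻¹ * g) = 0 from
        if_neg fun h => hg (by simpa using K.mul_mem k.2 h), mul_zero]
      exact (if_neg hg).symm
  have hω2 := omega_conv hχi hfc.cls (f := f)
  rw [hff] at hω2
  have hω : omega χ f = 1 := by
    rcases mul_eq_zero.1 (show omega χ f * (omega χ f - 1) = 0 by linear_combination -hω2) with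
      h | h
    · exfalso
      have h1 : v.r (omega (fun _ => 1 : G → ℂ) f) = v.r (omega χ f) := (mem_filter.1 hχ).2 f hfc
      rw [omega_one, h, v.r_zero,
        show ∑ g, f g = 1 by simpa [Nat.card_eq_fintype_card] using hsum fun _ => 1, v.r_one] at h1
      exact one_ne_zero h1
    · exact sub_eq_zero.1 h
  have hsing : ({χ} : Finset (G → ℂ)) ⊆ irr G := by simpa using hχi
  have hev : conv f (aS {χ}) = aS {χ} := by
    refine eq_of_omega (isCls_conv hfc.cls (isCls_aS hsing)) (isCls_aS hsing) fun ψ hψ => ?_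
    rw [omega_conv hψ (isCls_aS hsing), omega_aS hsing hψ]
    by_cases h : ψ = χ <;> simp [h, hω]
  have hmean : ∀ y, ∑ k : K, χ (y * k) = (Nat.card K : ℂ) * χ y := fun y => by
    have h := congrFun hev y⁻¹
    simp only [conv, aS, coef, sum_singleton, mul_one, mul_inv_rev, inv_inv] at h
    rw [hsum fun g => (Nat.card G : ℂ)⁻¹ * (χ 1 * χ (y * g)), ← mul_sum, ← mul_sum] at h
    have hne : (Nat.card G : ℂ)⁻¹ * χ 1 ≠ 0 :=
      mul_ne_zero (inv_ne_zero (Nat.cast_ne_zero.2 Nat.card_pos.ne')) (irr_one_ne_zero hχi)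
    rw [inv_mul_eq_iff_eq_mul₀ hK0] at h
    exact mul_left_cancel₀ hne (by linear_combination h)
  refine mul_left_cancel₀ hK0 ?_
  rw [← hmean, ← hmean]
  exact Fintype.sum_equiv (Equiv.mulLeft ⟨n, hn⟩) _ _ fun k => by simp [mul_assoc]

/-- **Elements acting trivially in the principal block** have order prime to `p`. -/
theorem reg_of_forall_prin {n : G} (hn : ∀ χ ∈ prin G v, χ n = χ 1) : Reg p n := by
  by_contra h
  have h0 := (good_prin (G := G) v).orth (S := prin G v) Reg.one h
  choose! d hd using fun (χ : G → ℂ) (hχ : χ ∈ prin G v) => irr_one ((good_prin v).sub hχ)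
  rw [sum_congr rfl fun χ hχ => show χ 1 * χ n = ((d χ ^ 2 : ℕ) : ℂ) by
    rw [hn χ hχ, (hd χ hχ).2]; push_cast; ring, ← Nat.cast_sum, Nat.cast_eq_zero,
    sum_eq_zero_iff] at h0
  have h1 := h0 _ (one_mem_prin v)
  exact (hd _ (one_mem_prin v)).1 (pow_eq_zero_iff (by norm_num) |>.1 h1)

include hu hC

/-- On `u K` the principal block is constant. -/
theorem prin_const {K : Subgroup C} [K.Normal] (hK : ¬ p ∣ Nat.card K) {χ : G → ℂ}
    (hχ : χ ∈ prin G v) {s : C} (hs : s ∈ K) : χ (u * s) = χ u := by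
  have h1 := second_main hu C hC hχ (s := (1 : C)) Reg.one
  rw [Subgroup.coe_one, mul_one, mul_one] at h1
  rw [second_main hu C hC hχ (reg_of_mem_of_not_dvd_card hK hs), h1]
  exact sum_congr rfl fun ψ hψ => by rw [prin_mul_mem hK hψ _ hs]

/-- **The norm of the column of `u`** in the principal block. -/
theorem sum_sq_prin {K : Subgroup C} [K.Normal] (hK : ¬ p ∣ Nat.card K)
    (hreg : ∀ c : C, Reg p c → c ∈ K) :
    ∑ χ ∈ prin G v, χ u * χ u⁻¹ = (Nat.card C : ℂ) / Nat.card K := by
  have hC' := (good_prin (G := C) v)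
  have hsplit : ∀ χ ∈ irr G,
      ∑ c : C, aS (prin C v) c * χ (u * c) = if χ ∈ prin G v then χ u else 0 := by
    intro χ hχ
    have h := sum_aS_mul_res hC'.sub hχ (⟨u, (hC u).2 rfl⟩ * 1)
    simp only [mul_one, Subgroup.coe_mul] at h
    rw [h]
    split_ifs with hB
    · have h2 := second_main hu C hC hB (s := (1 : C)) Reg.one
      simp only [Subgroup.coe_one, mul_one] at h2
      exact h2.symm
    · have h2 := second_main_not_prin hu C hC hχ hB (s := (1 : C)) Reg.one
      simpa using h2
  have hval : ∀ c : C, c ∈ K → aS (prin C v) c = aS (prin C v) 1 := fun c hc => by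
    simp only [aS, coef]
    congr 1
    refine sum_congr rfl fun ψ hψ => ?_
    rw [inv_one, ← one_mul c⁻¹, prin_mul_mem hK hψ 1 (K.inv_mem hc)]
  have hone : aS (prin C v) 1 = (Nat.card K : ℂ)⁻¹ := by
    refine eq_inv_of_mul_eq_one_right ?_
    rw [← sum_aS_prin (G := C) (v := v), ← sum_subset
        (subset_univ (univ.filter (· ∈ K))) fun c _ hc =>
      hC'.aS_singular fun h => hc (mem_filter.2 ⟨mem_univ c, hreg c h⟩),
      sum_congr rfl fun c hc => hval c (mem_filter.1 hc).2, sum_const, nsmul_eq_mul,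
      ← Fintype.card_subtype, Nat.card_eq_fintype_card]
  calc ∑ χ ∈ prin G v, χ u * χ u⁻¹
      = ∑ χ ∈ irr G, (if χ ∈ prin G v then χ u else 0) * χ u⁻¹ := by
        simp only [ite_mul, zero_mul]
        rw [← sum_filter, filter_mem_eq_inter, inter_eq_right.2 (good_prin v).sub]
    _ = ∑ χ ∈ irr G, ∑ c : C, aS (prin C v) c * (χ (u * c) * χ u⁻¹) :=
        sum_congr rfl fun χ hχ => by
          rw [← hsplit χ hχ, sum_mul]
          exact sum_congr rfl fun c _ => by ring
    _ = ∑ c : C, aS (prin C v) c * if c = 1 then (Nat.card C : ℂ) else 0 := by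
        rw [sum_comm]
        refine sum_congr rfl fun c _ => ?_
        rw [← mul_sum]
        by_cases hc : Reg p c
        · congr 1
          rw [column_orthogonality]
          have hcen : Subgroup.centralizer ({u} : Set G) = C := Subgroup.ext fun g =>
            (Subgroup.mem_centralizer_singleton_iff.trans (hC g).symm)
          by_cases h1 : c = 1
          · subst h1
            rw [if_pos rfl, if_pos (by simp; exact ⟨1, by simp⟩), hcen]
          · rw [if_neg h1, if_neg fun hconj => h1 (Subtype.ext ?_)]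
            obtain ⟨k, hk⟩ := hu
            obtain ⟨g, hg⟩ := isConj_iff.1 hconj
            refine (reg_coe.2 hc).eq_one_of_pow (k := k) ?_
            have h2 := congrArg (· ^ p ^ k) hg
            simp only [conj_pow, hk, mul_one, mul_inv_cancel,
              (show Commute u c from ((hC c).1 c.2).symm).mul_pow, one_mul] at h2
            exact h2.symm
        · rw [hC'.aS_singular hc, zero_mul, zero_mul]
    _ = _ := by simp [mul_ite, hone, div_eq_inv_mul]

omit hu hC

omit hp in
/-- Characters of a quotient in the principal block are in the principal block. -/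
theorem comp_mem_prin {H Q : Type*} [Group H] [Fintype H] [Group Q] [Fintype Q] {π : H →* Q}
    (hπ : Function.Surjective π) {φ : Q → ℂ} (hφ : φ ∈ prin Q v) :
    (fun h => φ (π h)) ∈ prin H v := by
  have hφi := (good_prin (G := Q) v).sub hφ
  obtain ⟨W, -, hW⟩ := exists_of_mem_irr hφi
  have hfib : ∀ F : Q → ℂ, ∑ h, F (π h) = (Nat.card π.ker : ℂ) * ∑ q, F q := fun F => by
    rw [← Fintype.sum_fiberwise π, mul_sum]
    refine sum_congr rfl fun q => fun _ => ?_
    obtain ⟨h0, rfl⟩ := hπ q
    rw [sum_congr rfl fun (h : {h // π h = π h0}) _ => by rw [h.2], sum_const, card_univ,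
      nsmul_eq_mul, ← Nat.card_eq_fintype_card]
    congr 2
    exact Nat.card_congr
      { toFun := fun h => ⟨h0⁻¹ * h, by simp [MonoidHom.mem_ker, h.2]⟩
        invFun := fun k => ⟨h0 * k, by simp [MonoidHom.mem_ker.1 k.2]⟩
        left_inv := fun h => Subtype.ext (mul_inv_cancel_left _ _)
        right_inv := fun k => Subtype.ext (inv_mul_cancel_left _ _) }
  have hirr : (fun h => φ (π h)) ∈ irr H := by
    subst hW
    refine mem_irr_of_norm (W.toRepresentation.comp π) ?_
    have hn := pairing_irr hφi hφi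
    rw [if_pos rfl] at hn
    have hcard : (Nat.card H : ℂ) = (Nat.card π.ker : ℂ) * Nat.card Q := by
      simpa [Nat.card_eq_fintype_card] using hfib fun _ => 1
    rw [← hn]
    show (Nat.card H : ℂ)⁻¹ * ∑ h, W.toRepresentation.character (π h) *
        W.toRepresentation.character (π h⁻¹) = _
    simp only [map_inv]
    rw [hfib fun q => W.toRepresentation.character q * W.toRepresentation.character q⁻¹, hcard,
      pairing]
    field_simp
    exact mul_div_cancel_left₀ _ (Nat.cast_ne_zero.2 (Nat.card_pos (α := π.ker)).ne')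
  refine mem_filter.2 ⟨hirr, fun f hf => ?_⟩
  set f' : Q → ℂ := fun q => ∑ h ∈ univ.filter (fun h => π h = q), f h
  have hf' : IsCen v f' := ⟨fun g q => by
      obtain ⟨g, rfl⟩ := hπ g
      refine sum_nbij' (fun h => g⁻¹ * h * g) (fun h => g * h * g⁻¹) (fun h hh => ?_)
        (fun h hh => ?_) (fun h _ => by group) (fun h _ => by group) (fun h _ => ?_)
      · have := (mem_filter.1 hh).2
        simp [this, mul_assoc]
      · simp [(mem_filter.1 hh).2]
      · rw [← hf.cls g (g⁻¹ * h * g)]
        congr 1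
        group,
    fun q => sum_mem fun h _ => hf.mem h⟩
  have hpush : ∀ F : Q → ℂ, ∑ q, f' q * F q = ∑ h, f h * F (π h) := fun F => by
    rw [← sum_fiberwise univ π]
    refine sum_congr rfl fun q _ => ?_
    rw [sum_mul]
    exact sum_congr rfl fun h hh => by rw [(mem_filter.1 hh).2]
  have h := (mem_filter.1 hφ).2 f' hf'
  rw [omega_one] at h ⊢
  rw [show ∑ h, f h = ∑ q, f' q by simpa using (hpush fun _ => 1).symm, h]
  simp only [omega, map_one, hpush φ]

end FA.PrincipalBlock

end
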