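import Fermat.Agent.PrincipalBlock.Regular
import Fermat.Agent.BrauerModular.Classes

/-!
# The principal idempotent modulo `p`

At a `p`-regular element `g` the principal idempotent is, up to a unit factor, the number of
factorisations of `g` as a `p`-element times a `p`-regular one, which can be counted in the
centraliser of any `p`-element commuting with `g`: the third main theorem for the principal block.
-/

set_option autoImplicit false
set_option linter.style.haveILetI false

noncomputable section

open Finset FA.CharacterTheory FA.FrobeniusGroups FA.Thompson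
open scoped Classical

namespace FA.PrincipalBlock

variable {G : Type*} [Group G] [Fintype G] {p : ℕ} [hp : Fact p.Prime] {v : Place p}

/-- Elements of `p`-power order. -/
def PEl (p : ℕ) {G : Type*} [Group G] (g : G) : Prop := ∃ k, g ^ p ^ k = 1

omit [Fintype G] hp in
theorem pEl_inv {g : G} : PEl p g⁻¹ ↔ PEl p g := by simp [PEl]

omit [Fintype G] hp in
theorem pEl_conj {g c : G} : PEl p (c * g * c⁻¹) ↔ PEl p g := by simp [PEl, conj_pow]

/-- The indicator of the elements of `p`-power order. -/
def indP (p : ℕ) {G : Type*} [Group G] (g : G) : ℂ := if PEl p g then 1 else 0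

/-- The indicator of the `p`-regular elements. -/
def indR (p : ℕ) {G : Type*} [Group G] (g : G) : ℂ := if Reg p g then 1 else 0

omit [Fintype G] hp in
theorem isCen_indP : IsCen v (indP p (G := G)) :=
  ⟨fun g x => by simp only [indP, pEl_conj],
    fun g => by unfold indP; split_ifs <;> simp [one_mem, zero_mem]⟩

omit [Fintype G] hp in
theorem isCen_indR : IsCen v (indR p (G := G)) :=
  ⟨fun g x => by simp only [indR, reg_conj_iff],
    fun g => by unfold indR; split_ifs <;> simp [one_mem, zero_mem]⟩

/-- **A set of characters is orthogonal on the regular elements to the others.** -/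
theorem Good.regular_orth {S : Finset (G → ℂ)} (hS : Good v S) {φ : G → ℂ} (hφ : φ ∈ irr G)
    (hφS : φ ∉ S) {ψ : G → ℂ} (hψ : ψ ∈ S) :
    ∑ s ∈ univ.filter (Reg p), φ s * ψ s⁻¹ = 0 := by
  set c : (G → ℂ) → ℂ := fun χ => ∑ s ∈ univ.filter (Reg p), φ s * χ s⁻¹ with hc
  have hΦ : ∀ g, ∑ χ ∈ S, c χ * χ g = 0 := by
    intro g
    have hswap : ∀ (A : Finset G), ∑ χ ∈ S, (∑ s ∈ A, φ s * χ s⁻¹) * χ g =
        ∑ s ∈ A, φ s * ∑ χ ∈ S, χ s⁻¹ * χ g := fun A => by
      simp only [sum_mul, mul_sum, mul_assoc]
      rw [sum_comm]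
    by_cases hg : Reg p g
    · have hall : ∑ χ ∈ S, (∑ s, φ s * χ s⁻¹) * χ g = 0 := sum_eq_zero fun χ hχ => by
        have h := pairing_irr hφ (hS.sub hχ)
        rw [if_neg fun e : φ = χ => hφS (e ▸ hχ), pairing, mul_eq_zero, or_iff_right
          (inv_ne_zero (Nat.cast_ne_zero.2 Nat.card_pos.ne'))] at h
        rw [h, zero_mul]
      rw [hswap, ← sum_filter_add_sum_filter_not univ (Reg p),
        sum_eq_zero (s := univ.filter fun s => ¬ Reg p s) (fun s hs => by
          rw [sum_congr rfl fun χ _ => mul_comm (χ s⁻¹) (χ g),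
            hS.orth hg fun h => (mem_filter.1 hs).2 (inv_inv s ▸ h.inv), mul_zero]),
        add_zero, ← hswap] at hall
      exact hall
    · simp only [hc]
      rw [hswap]
      exact sum_eq_zero fun s hs => by rw [hS.orth (mem_filter.1 hs).2.inv hg, mul_zero]
  have h := pairing_sum_left S c (fun χ => χ) ψ
  rw [sum_congr rfl fun χ hχ => by rw [pairing_irr (hS.sub hχ) (hS.sub hψ)]] at h
  simp only [mul_ite, mul_one, mul_zero, sum_ite_eq', hψ, if_true] at h
  show c ψ = 0
  rw [← h, funext hΦ]
  simp [pairing]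

/-- **A character outside the principal block sums to `0` on the regular elements.** -/
theorem omega_indR {χ : G → ℂ} (hχ : χ ∈ irr G) (hn : χ ∉ prin G v) :
    omega χ (indR p) = 0 := by
  have h := (good_prin v).compl.regular_orth one_mem_irr
    (fun h => (mem_sdiff.1 h).2 (one_mem_prin v)) (mem_sdiff.2 ⟨hχ, hn⟩)
  rw [omega, mul_eq_zero]
  right
  simp only [indR, ite_mul, one_mul, zero_mul, ← sum_filter]
  rw [← h]
  simp only [one_mul]
  exact sum_nbij' (·⁻¹) (·⁻¹) (fun s hs => by simpa using (mem_filter.1 hs).2.inv)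
    (fun s hs => by simpa using (mem_filter.1 hs).2.inv) (by simp) (by simp) (by simp)

/-- Block idempotents vanish on singular elements. -/
theorem Good.aS_singular {S : Finset (G → ℂ)} (hS : Good v S) {g : G} (hg : ¬ Reg p g) :
    aS S g = 0 := by
  simp only [aS, coef, mul_one]
  rw [hS.orth Reg.one fun h => hg (inv_inv g ▸ h.inv), mul_zero]

variable (v) in
/-- The reduction into the group algebra. -/
def toAlg (f : G → ℂ) : MonoidAlgebra v.k G := ∑ g, MonoidAlgebra.single g (v.r (f g))

omit hp in
theorem toAlg_conv {f f' : G → ℂ} (hf : ∀ g, f g ∈ v.O) (hf' : ∀ g, f' g ∈ v.O) :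
    toAlg v (conv f f') = toAlg v f * toAlg v f' := by
  simp only [toAlg, conv, sum_mul_sum, MonoidAlgebra.single_mul_single]
  rw [sum_congr rfl fun g _ => by
    rw [v.r_sum _ fun h _ => mul_mem (hf h) (hf' _), ← MonoidAlgebra.singleAddHom_apply, map_sum],
    sum_comm]
  refine sum_congr rfl fun h _ => Fintype.sum_equiv (Equiv.mulLeft h⁻¹) _ _ fun g => ?_
  simp only [MonoidAlgebra.singleAddHom_apply, Equiv.coe_mulLeft, mul_inv_cancel_left]
  rw [v.r_mul (hf h) (hf' _)]

omit hp in
/-- A central element with all central characters small is nilpotent. -/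
theorem isNilpotent_toAlg {z : G → ℂ} (hz : IsCen v z)
    (hsmall : ∀ χ ∈ irr G, v.r (omega χ z) = 0) : IsNilpotent (toAlg v z) := by
  have key : ∀ A, A ⊆ irr G → ∃ e, IsCen v e ∧ (∀ χ ∈ A, omega χ e = 0) ∧
      toAlg v e = toAlg v z ^ A.card := by
    intro A
    induction A using Finset.induction_on with
    | empty =>
      refine fun _ => ⟨_, IsCen.dlt, by simp, ?_⟩
      simp [toAlg, dlt, MonoidAlgebra.one_def, v.r_zero, v.r_one, apply_ite v.r,
        apply_ite (MonoidAlgebra.single (_ : G))]
    | insert χ A hχA ih =>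
      intro hA
      obtain ⟨e, hec, he0, het⟩ := ih fun x hx => hA (mem_insert_of_mem hx)
      have hχ := hA (mem_insert_self χ A)
      have hω := hz.omega_mem hχ
      have hd : IsCen v (z - omega χ z • dlt 1) := hz.sub (IsCen.dlt.smul hω)
      refine ⟨conv e (z - omega χ z • dlt 1), hec.conv hd, fun x hx => ?_, ?_⟩
      · have hxi := hA hx
        rw [omega_conv hxi hd.cls]
        rcases mem_insert.1 hx with rfl | hx
        · rw [omega_sub, omega_smul, omega_dlt hxi, mul_one, sub_self, mul_zero]
        · rw [he0 x hx, zero_mul]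
      · rw [toAlg_conv hec.mem hd.mem, het, card_insert_of_notMem hχA, pow_succ]
        congr 1
        refine sum_congr rfl fun g _ => congrArg (MonoidAlgebra.single g) ?_
        rw [Pi.sub_apply, Pi.smul_apply, smul_eq_mul,
          v.r_sub (hz.mem g) (mul_mem hω (dlt_mem 1 g)), v.r_mul hω (dlt_mem 1 g), hsmall χ hχ,
          zero_mul, sub_zero]
  obtain ⟨e, hec, he0, het⟩ := key _ subset_rfl
  have he : e = 0 := eq_of_omega hec.cls (fun g x => rfl) fun χ hχ => by
    rw [he0 χ hχ]; simp [omega]
  refine ⟨(irr G).card, ?_⟩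
  rw [← het, he]
  simp [toAlg, v.r_zero]

omit [Fintype G] in
theorem regClass_eq_one_iff [Finite G] (g : G) :
    FA.BrauerModular.regClass p g = FA.BrauerModular.regClass p 1 ↔ PEl p g := by
  rw [Subtype.ext_iff]
  show ConjClasses.mk (g ^ _) = ConjClasses.mk ((1 : G) ^ _) ↔ _
  rw [one_pow, ConjClasses.mk_eq_mk_iff_isConj, isConj_one_left]
  constructor
  · intro h
    refine ⟨(Nat.card G).factorization p, orderOf_dvd_iff_pow_eq_one.1 ?_⟩
    have h1 := orderOf_dvd_of_pow_eq_one h
    obtain ⟨-, he⟩ := FA.BrauerModular.projExp_spec p G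
    have hcop : Nat.Coprime (orderOf g) (Nat.card G / p ^ (Nat.card G).factorization p) := by
      refine Nat.Coprime.coprime_dvd_left h1 ?_
      rw [Nat.coprime_iff_gcd_eq_one, he.gcd_eq, Nat.gcd_one_left]
    refine hcop.dvd_of_dvd_mul_right ?_
    rw [Nat.mul_div_cancel' (Nat.ordProj_dvd _ _)]
    exact orderOf_dvd_natCard g
  · rintro ⟨k, hk⟩
    exact (show Reg p (g ^ FA.BrauerModular.projExp p G) from
      FA.BrauerModular.not_dvd_orderOf_pow p g).eq_one_of_pow (k := k)
      (by rw [← pow_mul, mul_comm, pow_mul, hk, one_pow])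

/-- `p`-elements annihilate central elements with small central characters. -/
theorem conv_indP_small {z : G → ℂ} (hz : IsCen v z)
    (hsmall : ∀ χ ∈ irr G, v.r (omega χ z) = 0) (g₀ : G) : v.r (conv (indP p) z g₀) = 0 := by
  have hcomm : Commute (toAlg v z) (MonoidAlgebra.single g₀⁻¹ 1) := by
    show _ * _ = _ * _
    simp only [toAlg, sum_mul, mul_sum, MonoidAlgebra.single_mul_single, mul_one, one_mul]
    refine Fintype.sum_equiv (MulAut.conj g₀).toEquiv _ _ fun g => ?_
    simp only [MulEquiv.toEquiv_eq_coe, MulEquiv.coe_toEquiv, MulAut.conj_apply]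
    rw [hz.cls g₀ g]
    congr 1
    group
  have hnil : IsNilpotent (toAlg v z * MonoidAlgebra.single g₀⁻¹ 1) :=
    hcomm.isNilpotent_mul_right (isNilpotent_toAlg hz hsmall)
  have hker := FA.BrauerModular.mem_of_isNilpotent (k := v.k) p hnil
  rw [← FA.BrauerModular.ker_regMap, LinearMap.mem_ker] at hker
  have hreg : ∀ y : G, FA.BrauerModular.regClass p 1 = FA.BrauerModular.regClass p y ↔ PEl p y :=
    fun y => eq_comm.trans (regClass_eq_one_iff y)
  have h := congrFun hker (FA.BrauerModular.regClass p 1)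
  simp only [toAlg, sum_mul, MonoidAlgebra.single_mul_single, mul_one, map_sum, Finset.sum_apply,
    FA.BrauerModular.regMap_single, Pi.smul_apply, Pi.single_apply, smul_eq_mul, Pi.zero_apply,
    mul_ite, mul_one, mul_zero, hreg] at h
  rw [← h, conv, v.r_sum _ fun x _ => mul_mem (isCen_indP.mem x) (hz.mem _)]
  refine Fintype.sum_equiv ((Equiv.inv G).trans (Equiv.mulRight g₀)) _ _ fun x => ?_
  simp only [Equiv.trans_apply, Equiv.inv_apply, Equiv.coe_mulRight, mul_inv_cancel_right,
    pEl_inv]
  rw [v.r_mul (isCen_indP.mem x) (hz.mem _), indP]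
  split_ifs with hx <;> simp [v.r_zero, v.r_one]

/-- On regular elements the product with the sum of the `p`-elements changes nothing. -/
theorem conv_indP_prin {g : G} (hg : Reg p g) :
    conv (indP p) (aS (prin G v)) g = aS (prin G v) g := by
  have hB := good_prin (G := G) v
  have h : conv (indP p) (aS (prin G v)) = coef (prin G v) fun χ => omega χ (indP p) :=
    eq_of_omega (isCls_conv (isCen_indP (v := v)).cls hB.cen.cls) (isCls_coef hB.sub _)
      fun χ hχ => by
        rw [omega_conv hχ hB.cen.cls, omega_aS hB.sub hχ, omega_coef hB.sub _ hχ]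
        split_ifs <;> simp
  rw [h, aS, coef, coef]
  congr 1
  simp only [omega, mul_one]
  rw [sum_congr rfl fun χ hχ => by
    rw [mul_inv_cancel_left₀ (irr_one_ne_zero (hB.sub hχ)), sum_mul], sum_comm,
    sum_eq_single (1 : G) (fun w _ hw => ?_) fun h => absurd (mem_univ _) h]
  · exact sum_congr rfl fun χ _ => by
      rw [indP, if_pos ⟨0, by simp⟩, one_mul]
  · by_cases hwp : PEl p w
    · rw [indP, if_pos hwp]
      simp only [one_mul]
      rw [sum_congr rfl fun χ _ => mul_comm (χ w) (χ g⁻¹)]
      exact hB.orth hg.inv fun hr => hw (hr.eq_one_of_pow hwp.choose_spec)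
    · simp [indP, hwp]

variable (G) in
/-- The number of factorisations. -/
def pairCount (p : ℕ) : G → ℂ := conv (indP p) (indR p)

/-- **Külshammer's congruence.** -/
theorem r_pairCount {g : G} (hg : Reg p g) :
    v.r (pairCount G p g) = v.r (∑ h : G, indR p h) * v.r (aS (prin G v) g) := by
  have hB := good_prin (G := G) v
  set n : ℂ := ∑ h : G, indR p h
  have hn : n ∈ v.O := sum_mem fun h _ => isCen_indR.mem h
  have hz : IsCen v (indR p - n • aS (prin G v)) := isCen_indR.sub (hB.cen.smul hn)
  have hsmall : ∀ χ ∈ irr G, v.r (omega χ (indR p - n • aS (prin G v))) = 0 := fun χ hχ => by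
    rw [omega_sub, omega_smul, omega_aS hB.sub hχ]
    split_ifs with h
    · have h1 : v.r (omega (fun _ => 1 : G → ℂ) (indR p)) = v.r (omega χ (indR p)) :=
        (mem_filter.1 h).2 _ (isCen_indR (v := v))
      rw [omega_one] at h1
      rw [mul_one, v.r_sub ((isCen_indR (v := v)).omega_mem hχ) hn, ← h1, sub_self]
    · rw [omega_indR hχ h, mul_zero, sub_self, v.r_zero]
  have h0 := conv_indP_small hz hsmall g
  have hlin : conv (indP p) (indR p - n • aS (prin G v)) g =
      pairCount G p g - n * conv (indP p) (aS (prin G v)) g := by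
    simp only [pairCount, conv, Pi.sub_apply, Pi.smul_apply, smul_eq_mul, mul_sub,
      sum_sub_distrib, mul_sum]
    congr 1
    exact sum_congr rfl fun h _ => by ring
  have hm : conv (indP p) (aS (prin G v)) g ∈ v.O := by
    rw [conv_indP_prin hg]; exact hB.cen.mem g
  rw [hlin, v.r_sub (show pairCount G p g ∈ v.O from (isCen_indP.conv isCen_indR).mem g)
    (mul_mem hn hm), v.r_mul hn hm,
    conv_indP_prin hg, sub_eq_zero] at h0
  exact h0

theorem pairCount_one : pairCount G p 1 = 1 := by
  simp only [pairCount, conv, mul_one]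
  rw [sum_eq_single 1 (fun w _ hw => ?_) fun h => absurd (mem_univ _) h]
  · simp [indP, indR, PEl, Reg.one]
  · by_cases hwp : PEl p w
    · rw [indR, if_neg fun h => hw (by
        simpa using (h.inv).eq_one_of_pow (k := hwp.choose) (by simpa using hwp.choose_spec)),
        mul_zero]
    · simp [indP, hwp]

theorem r_count_ne_zero : v.r (∑ h : G, indR p h) ≠ 0 := fun h0 => by
  have h := r_pairCount (v := v) (G := G) Reg.one
  rw [pairCount_one, v.r_one, h0, zero_mul] at h
  exact one_ne_zero h

/-- Sums of invariant functions only see the centraliser. -/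
theorem r_sum_centralizer {u : G} (hu : PEl p u) (C : Subgroup G)
    (hC : ∀ g, g ∈ C ↔ g * u = u * g) {f : G → ℂ} (hf : ∀ g, f g ∈ v.O)
    (hinv : ∀ g, f (u * g * u⁻¹) = f g) : v.r (∑ g, f g) = v.r (∑ c : C, f c) := by
  obtain ⟨k, hk⟩ := hu
  letI : MulAction (Subgroup.zpowers u) G :=
    MulAction.compHom G ((MulAut.conj).comp (Subgroup.zpowers u).subtype)
  have hA : IsPGroup p (Subgroup.zpowers u) := by
    obtain ⟨i, -, hi⟩ := (Nat.dvd_prime_pow hp.out).1 (orderOf_dvd_of_pow_eq_one hk)
    exact IsPGroup.of_card (n := i) (by rw [Nat.card_zpowers, hi])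
  have hpow : ∀ (i : ℕ) g, f (u ^ i * g * (u ^ i)⁻¹) = f g := fun i g => by
    induction i generalizing g with
    | zero => simp
    | succ i ih =>
      rw [pow_succ', show u * u ^ i * g * (u * u ^ i)⁻¹ = u * (u ^ i * g * (u ^ i)⁻¹) * u⁻¹ by
        group,
        hinv, ih]
  have h := FA.GlaubermanCorrespondence.sum_eq_sum_fixedPoints hA (univ : Finset G)
    (fun _ _ _ => mem_univ _) (f := fun g => v.r (f g)) fun a g _ => by
      obtain ⟨i, hi⟩ : ∃ i : ℕ, u ^ i = (a : G) :=
        ((isOfFinOrder_of_finite u).mem_powers_iff_mem_zpowers).2 a.2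
      show v.r (f ((a : G) * g * (a : G)⁻¹)) = _
      rw [← hi, hpow]
  rw [v.r_sum _ (fun g _ => hf g), h,
    v.r_sum (univ : Finset C) (f := fun c : C => f c) (fun c _ => hf (c : G))]
  refine sum_subtype _ (p := (· ∈ C)) (fun g => ?_) (fun g => v.r (f g))
  simp only [mem_filter, mem_univ, true_and, MulAction.mem_fixedPoints]
  rw [hC]
  constructor
  · intro h1
    have h2 : u * g * u⁻¹ = g := h1 ⟨u, Subgroup.mem_zpowers u⟩
    exact (mul_inv_eq_iff_eq_mul.1 h2).symm
  · intro h1 a
    obtain ⟨i, hi⟩ := Subgroup.mem_zpowers_iff.1 a.2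
    show (a : G) * g * (a : G)⁻¹ = g
    rw [← hi, ((Commute.symm h1).zpow_left i).eq, mul_inv_cancel_right]

omit [Fintype G] hp in
theorem reg_coe {C : Subgroup G} {c : C} : Reg p (c : G) ↔ Reg p c :=
  reg_map_iff (f := C.subtype) C.subtype_injective

omit [Fintype G] hp in
theorem pEl_coe {C : Subgroup G} {c : C} : PEl p (c : G) ↔ PEl p c := by
  simp [PEl, Subtype.ext_iff]

/-- **Brauer's third main theorem for the principal block**, as a congruence. -/
theorem r_aS_prin_centralizer {u : G} (hu : PEl p u) (C : Subgroup G)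
    (hC : ∀ g, g ∈ C ↔ g * u = u * g) (c : C) :
    v.r (aS (prin G v) c) = v.r (aS (prin C v) c) := by
  by_cases hc : Reg p c
  · have hcG : Reg p (c : G) := reg_coe.2 hc
    have hP : ∀ h : C, indP p (h : G) = indP p h := fun h => by simp only [indP, pEl_coe]
    have hR : ∀ h : C, indR p (h : G) = indR p h := fun h => by simp only [indR, reg_coe]
    have hn : v.r (∑ h : G, indR p h) = v.r (∑ h : C, indR p h) := by
      rw [r_sum_centralizer hu C hC isCen_indR.mem fun g => (isCen_indR (v := v)).cls u g]
      simp only [hR]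
    have hT : v.r (pairCount G p c) = v.r (pairCount C p c) := by
      simp only [pairCount, conv]
      rw [r_sum_centralizer hu C hC
        (fun h => mul_mem (isCen_indP.mem h) (isCen_indR.mem _)) fun g => ?_]
      · congr 1
        exact sum_congr rfl fun h _ => by rw [hP, ← hR]; rfl
      · rw [(isCen_indP (v := v)).cls u g]
        congr 1
        have hcu : (c : G) * u = u * c := (hC c).1 c.2
        rw [show (u * g * u⁻¹)⁻¹ * (c : G) = u * (g⁻¹ * c) * u⁻¹ by
          rw [mul_inv_rev, mul_inv_rev, inv_inv, mul_assoc, mul_assoc, mul_assoc, mul_assoc]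
          congr 2
          rw [eq_mul_inv_iff_mul_eq, mul_assoc, hcu, inv_mul_cancel_left]]
        exact (isCen_indR (v := v)).cls u _
    rw [r_pairCount hcG, r_pairCount hc, hn] at hT
    exact mul_left_cancel₀ r_count_ne_zero hT
  · rw [(good_prin v).aS_singular hc, (good_prin v).aS_singular fun h => hc (reg_coe.1 h)]

end FA.PrincipalBlock

end
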