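import Fermat.Agent.PrincipalBlock.Place
import Fermat.Agent.GlaubermanCorrespondence.Orbits
import Mathlib.LinearAlgebra.Matrix.Charpoly.Basic
import Mathlib.RingTheory.Bezout

/-!
# Central functions and block idempotents

For class functions with values in `O` the central characters have values in `O`, and the
idempotent of a set of characters closed under congruence of central characters has values in `O`.
-/

set_option autoImplicit false
set_option linter.style.haveILetI false

noncomputable section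

open Finset FA.FrobeniusGroups FA.CharacterTheory
open scoped Classical

namespace FA.PrincipalBlock

variable {G : Type*} [Group G] [Fintype G]

/-- Convolution. -/
def conv (f f' : G → ℂ) : G → ℂ := fun g => ∑ h, f h * f' (h⁻¹ * g)

/-- The indicator of an element. -/
def dlt (a : G) : G → ℂ := fun g => if g = a then 1 else 0

/-- The central character. -/
def omega (χ f : G → ℂ) : ℂ := (χ 1)⁻¹ * ∑ g, f g * χ g

/-- The class function with given central characters on `S`, and `0` elsewhere. -/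
def coef (S : Finset (G → ℂ)) (φ : (G → ℂ) → ℂ) : G → ℂ := fun g =>
  (Nat.card G : ℂ)⁻¹ * ∑ χ ∈ S, χ 1 * φ χ * χ g⁻¹

/-- The idempotent of a set of characters. -/
def aS (S : Finset (G → ℂ)) : G → ℂ := coef S fun _ => 1

/-- Class functions. -/
def IsCls (f : G → ℂ) : Prop := ∀ g x : G, f (g * x * g⁻¹) = f x

theorem irr_one_ne_zero {χ : G → ℂ} (hχ : χ ∈ irr G) : χ 1 ≠ 0 := by
  obtain ⟨d, hd, h⟩ := irr_one hχ
  rw [h]
  exact Nat.cast_ne_zero.2 hd

theorem isCls_conv {f f' : G → ℂ} (hf : IsCls f) (hf' : IsCls f') : IsCls (conv f f') :=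
  fun g x => Fintype.sum_equiv (MulAut.conj g⁻¹).toEquiv _ _ fun h => by
    show f h * f' (h⁻¹ * (g * x * g⁻¹)) = f (g⁻¹ * h * g⁻¹⁻¹) * f' ((g⁻¹ * h * g⁻¹⁻¹)⁻¹ * x)
    rw [hf g⁻¹ h, ← hf' g⁻¹ (h⁻¹ * (g * x * g⁻¹))]
    congr 2
    group

omit [Fintype G] in
theorem isCls_dlt : IsCls (dlt (1 : G)) := fun g x => by
  simp only [dlt, conj_eq_one_iff]

theorem isCls_coef {S : Finset (G → ℂ)} (hS : S ⊆ irr G) (φ : (G → ℂ) → ℂ) : IsCls (coef S φ) :=
  fun g x => by
    simp only [coef]
    congr 1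
    refine sum_congr rfl fun χ hχ => ?_
    rw [show (g * x * g⁻¹)⁻¹ = g * x⁻¹ * g⁻¹ by group, irr_conj (hS hχ)]

theorem isCls_aS {S : Finset (G → ℂ)} (hS : S ⊆ irr G) : IsCls (aS S) := isCls_coef hS _

theorem omega_conv {χ f f' : G → ℂ} (hχ : χ ∈ irr G) (hf' : IsCls f') :
    omega χ (conv f f') = omega χ f * omega χ f' := by
  have hN : (Nat.card G : ℂ) ≠ 0 := Nat.cast_ne_zero.2 Nat.card_pos.ne'
  have h1 : ∑ g, conv f f' g * χ g = ∑ h, ∑ y, f h * f' y * χ (h * y) := by
    simp only [conv, sum_mul]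
    rw [sum_comm]
    refine sum_congr rfl fun h _ => Fintype.sum_equiv (Equiv.mulLeft h⁻¹) _ _ fun g => ?_
    simp only [Equiv.coe_mulLeft, mul_inv_cancel_left]
  have h2 : ∀ g h : G, ∑ y, f' y * χ (h * (g * y * g⁻¹)) = ∑ y, f' y * χ (h * y) := fun g h =>
    Fintype.sum_equiv (MulAut.conj g).toEquiv _ _ fun y => by
      show _ = f' (g * y * g⁻¹) * χ (h * (g * y * g⁻¹))
      rw [hf']
  have h3 : (∑ h, f h * χ h) * ∑ y, f' y * χ y = χ 1 * ∑ h, ∑ y, f h * f' y * χ (h * y) := by
    refine mul_left_cancel₀ hN ?_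
    calc (Nat.card G : ℂ) * ((∑ h, f h * χ h) * ∑ y, f' y * χ y)
        = ∑ h, ∑ y, f h * f' y * ((Nat.card G : ℂ) * (χ h * χ y)) := by
          rw [sum_mul_sum, mul_sum]
          refine sum_congr rfl fun h _ => ?_
          rw [mul_sum]
          exact sum_congr rfl fun y _ => by ring
      _ = ∑ h, ∑ g, χ 1 * f h * ∑ y, f' y * χ (h * (g * y * g⁻¹)) := by
          refine sum_congr rfl fun h _ => ?_
          simp only [FA.GlaubermanCorrespondence.card_mul_mul hχ, mul_sum]
          rw [sum_comm]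
          exact sum_congr rfl fun g _ => sum_congr rfl fun y _ => by ring
      _ = _ := by
          simp only [h2, sum_const, card_univ, nsmul_eq_mul, ← Nat.card_eq_fintype_card, mul_sum]
          exact sum_congr rfl fun h _ => sum_congr rfl fun y _ => by ring
  simp only [omega]
  rw [h1, mul_mul_mul_comm, h3]
  field_simp [irr_one_ne_zero hχ]

theorem omega_coef {S : Finset (G → ℂ)} (hS : S ⊆ irr G) (φ : (G → ℂ) → ℂ) {ψ : G → ℂ}
    (hψ : ψ ∈ irr G) : omega ψ (coef S φ) = if ψ ∈ S then φ ψ else 0 := by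
  have h : ∑ g, coef S φ g * ψ g = ∑ χ ∈ S, χ 1 * φ χ * pairing ψ χ := by
    simp only [coef, pairing, mul_sum, sum_mul]
    rw [sum_comm]
    exact sum_congr rfl fun χ _ => sum_congr rfl fun g _ => by ring
  rw [omega, h, sum_congr rfl fun χ hχ => by rw [pairing_irr hψ (hS hχ)]]
  simp only [mul_ite, mul_one, mul_zero, sum_ite_eq]
  split_ifs with hm
  · exact inv_mul_cancel_left₀ (irr_one_ne_zero hψ) _
  · simp

theorem eq_coef {f : G → ℂ} (hf : IsCls f) : f = coef (irr G) fun χ => omega χ f := by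
  funext g
  have h := expansion (f := fun x => f x⁻¹) (fun a x => by
    rw [show (a * x * a⁻¹)⁻¹ = a * x⁻¹ * a⁻¹ by group, hf]) g⁻¹
  simp only [inv_inv] at h
  rw [h, coef, mul_sum]
  refine sum_congr rfl fun χ hχ => ?_
  rw [omega, mul_inv_cancel_left₀ (irr_one_ne_zero hχ), pairing,
    Fintype.sum_equiv (Equiv.inv G) (fun x => f x⁻¹ * χ x⁻¹) (fun x => f x * χ x) fun x => rfl]
  ring

theorem omega_add (χ f f' : G → ℂ) : omega χ (f + f') = omega χ f + omega χ f' := by
  simp [omega, add_mul, sum_add_distrib, mul_add]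

theorem omega_smul (χ f : G → ℂ) (c : ℂ) : omega χ (c • f) = c * omega χ f := by
  simp only [omega, Pi.smul_apply, smul_eq_mul, mul_sum]
  exact sum_congr rfl fun g _ => by ring

theorem omega_sub (χ f f' : G → ℂ) : omega χ (f - f') = omega χ f - omega χ f' := by
  simp [omega, sub_mul, mul_sub, sum_sub_distrib]

theorem omega_dlt {χ : G → ℂ} (hχ : χ ∈ irr G) : omega χ (dlt 1) = 1 := by
  simp [omega, dlt, irr_one_ne_zero hχ]

theorem omega_one (f : G → ℂ) : omega (fun _ => 1) f = ∑ g, f g := by simp [omega]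

theorem eq_of_omega {f f' : G → ℂ} (hf : IsCls f) (hf' : IsCls f')
    (h : ∀ χ ∈ irr G, omega χ f = omega χ f') : f = f' := by
  rw [eq_coef hf, eq_coef hf']
  funext g
  simp only [coef]
  congr 1
  exact sum_congr rfl fun χ hχ => by rw [h χ hχ]

theorem omega_aS {S : Finset (G → ℂ)} (hS : S ⊆ irr G) {ψ : G → ℂ} (hψ : ψ ∈ irr G) :
    omega ψ (aS S) = if ψ ∈ S then 1 else 0 :=
  omega_coef hS _ hψ

theorem aS_compl {S : Finset (G → ℂ)} (hS : S ⊆ irr G) : aS (irr G \ S) = dlt 1 - aS S := by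
  refine eq_of_omega (isCls_aS sdiff_subset) (fun g x => by
    rw [Pi.sub_apply, Pi.sub_apply, isCls_dlt g x, isCls_aS hS g x]) fun χ hχ => ?_
  rw [omega_sub, omega_dlt hχ, omega_aS hS hχ, omega_aS sdiff_subset hχ]
  by_cases h : χ ∈ S <;> simp [h, hχ]

variable {p : ℕ} (v : Place p)

/-- Class functions with values in `O`. -/
structure IsCen (f : G → ℂ) : Prop where
  cls : IsCls f
  mem : ∀ g, f g ∈ v.O

variable {v}

omit [Fintype G] in
theorem IsCen.dlt : IsCen v (dlt (1 : G)) :=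
  ⟨isCls_dlt, fun _ => by unfold PrincipalBlock.dlt; split_ifs <;> simp [one_mem, zero_mem]⟩

theorem IsCen.conv {f f' : G → ℂ} (hf : IsCen v f) (hf' : IsCen v f') : IsCen v (conv f f') :=
  ⟨isCls_conv hf.cls hf'.cls, fun _ => sum_mem fun h _ => mul_mem (hf.mem h) (hf'.mem _)⟩

omit [Fintype G] in
theorem IsCen.sub {f f' : G → ℂ} (hf : IsCen v f) (hf' : IsCen v f') : IsCen v (f - f') :=
  ⟨fun g x => by simp only [Pi.sub_apply, hf.cls g x, hf'.cls g x],
    fun g => sub_mem (hf.mem g) (hf'.mem g)⟩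

omit [Fintype G] in
theorem IsCen.smul {f : G → ℂ} {c : ℂ} (hc : c ∈ v.O) (hf : IsCen v f) : IsCen v (c • f) :=
  ⟨fun g x => by simp only [Pi.smul_apply, hf.cls g x], fun g => mul_mem hc (hf.mem g)⟩

/-- **The central characters have values in `O`.** -/
theorem IsCen.omega_mem {f χ : G → ℂ} (hf : IsCen v f) (hχ : χ ∈ irr G) :
    omega χ f ∈ v.O := by
  set w := omega χ f
  set M : Matrix G G v.O := Matrix.of fun g h => ⟨f (g * h⁻¹), hf.mem _⟩
  have hsing : ({χ} : Finset (G → ℂ)) ⊆ irr G := by simpa using hχ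
  have hev : PrincipalBlock.conv f (aS {χ}) = w • aS {χ} := by
    refine eq_of_omega (isCls_conv hf.cls (isCls_aS hsing)) (fun g x => by
      rw [Pi.smul_apply, Pi.smul_apply, isCls_aS hsing g x]) fun ψ hψ => ?_
    rw [omega_conv hψ (isCls_aS hsing), omega_smul, omega_aS hsing hψ]
    by_cases h : ψ = χ <;> simp [h, w]
  have hne : aS ({χ} : Finset (G → ℂ)) ≠ 0 := fun h => by
    have h1 := omega_aS hsing hχ
    rw [h] at h1
    simp [omega] at h1
  have hdet : (Matrix.scalar G w - M.map (algebraMap v.O ℂ)).det = 0 := by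
    refine Matrix.exists_mulVec_eq_zero_iff.1 ⟨aS {χ}, hne, funext fun g => ?_⟩
    rw [Matrix.sub_mulVec, Pi.sub_apply, Pi.zero_apply, sub_eq_zero, Matrix.scalar_apply,
      Matrix.mulVec_diagonal]
    have h := congrFun hev g
    rw [Pi.smul_apply, smul_eq_mul] at h
    rw [← h]
    refine (Fintype.sum_equiv ((Equiv.inv G).trans (Equiv.mulLeft g)) _ _ fun k => ?_).symm
    simp [M, mul_assoc]
  have hint : IsIntegral v.O w := by
    refine ⟨M.charpoly, M.charpoly_monic, ?_⟩
    rw [← Polynomial.eval_map, ← Matrix.charpoly_map, Matrix.eval_charpoly]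
    exact hdet
  obtain ⟨y, hy⟩ := IsIntegrallyClosed.isIntegral_iff.1 hint
  rw [← hy]
  exact y.2

variable (v)

/-- Congruent central characters. -/
def Rel (χ ψ : G → ℂ) : Prop := ∀ f, IsCen v f → v.r (omega χ f) = v.r (omega ψ f)

/-- The block of a character. -/
def blk (χ : G → ℂ) : Finset (G → ℂ) := (irr G).filter (Rel v χ)

variable (G) in
/-- The principal block. -/
def prin : Finset (G → ℂ) := blk v fun _ : G => 1

theorem blk_subset (χ : G → ℂ) : blk v χ ⊆ irr G := filter_subset _ _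

theorem one_mem_prin : (fun _ => 1 : G → ℂ) ∈ prin G v :=
  mem_filter.2 ⟨one_mem_irr, fun _ _ => rfl⟩

/-- **Block idempotents have values in `O`.** -/
theorem isCen_aS_blk {χ₀ : G → ℂ} : IsCen v (aS (blk v χ₀)) := by
  have hsep : ∀ ψ ∈ irr G \ blk v χ₀, ∃ f, IsCen v f ∧
      v.r (omega χ₀ f) ≠ v.r (omega ψ f) := fun ψ hψ => by
    obtain ⟨h1, h2⟩ := mem_sdiff.1 hψ
    by_contra! h
    exact h2 (mem_filter.2 ⟨h1, h⟩)
  choose! F hF hF' using hsep
  have hw : ∀ T, T ⊆ irr G \ blk v χ₀ → ∃ w, IsCen v w ∧ (∀ ψ ∈ T, omega ψ w = 0) ∧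
      ∀ χ ∈ blk v χ₀, v.r (omega χ w) ≠ 0 := by
    intro T
    induction T using Finset.induction_on with
    | empty =>
      exact fun _ => ⟨_, IsCen.dlt, by simp, fun χ hχ => by
        rw [omega_dlt (blk_subset v _ hχ), v.r_one]; exact one_ne_zero⟩
    | insert ψ T hψT ih =>
      intro hT
      obtain ⟨w, hwc, hw0, hw1⟩ := ih fun x hx => hT (mem_insert_of_mem hx)
      have hψ := hT (mem_insert_self ψ T)
      have hψi := (mem_sdiff.1 hψ).1
      have hc := (hF ψ hψ).omega_mem hψi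
      have hd : IsCen v (F ψ - omega ψ (F ψ) • dlt 1) := (hF ψ hψ).sub (IsCen.dlt.smul hc)
      refine ⟨conv w (F ψ - omega ψ (F ψ) • dlt 1), hwc.conv hd, fun x hx => ?_, fun χ hχ => ?_⟩
      · have hxi := (mem_sdiff.1 (hT hx)).1
        rw [omega_conv hxi hd.cls]
        rcases mem_insert.1 hx with rfl | hx
        · rw [omega_sub, omega_smul, omega_dlt hxi, mul_one, sub_self, mul_zero]
        · rw [hw0 x hx, zero_mul]
      · have hχi := blk_subset v _ hχ
        rw [omega_conv hχi hd.cls, v.r_mul (hwc.omega_mem hχi) (hd.omega_mem hχi), omega_sub,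
          omega_smul, omega_dlt hχi, mul_one, v.r_sub ((hF ψ hψ).omega_mem hχi) hc]
        refine mul_ne_zero (hw1 χ hχ) (sub_ne_zero.2 ?_)
        rw [← (mem_filter.1 hχ).2 _ (hF ψ hψ)]
        exact hF' ψ hψ
  obtain ⟨w, hwc, hw0, hw1⟩ := hw _ subset_rfl
  have he : ∀ T, T ⊆ blk v χ₀ → ∃ e, IsCen v e ∧
      (∀ ψ ∈ irr G \ blk v χ₀, omega ψ e = 1) ∧ ∀ χ ∈ T, omega χ e = 0 := by
    intro T
    induction T using Finset.induction_on with
    | empty => exact fun _ => ⟨_, IsCen.dlt, fun ψ hψ => omega_dlt (mem_sdiff.1 hψ).1, by simp⟩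
    | insert χ T hχT ih =>
      intro hT
      obtain ⟨e, hec, he1, he0⟩ := ih fun x hx => hT (mem_insert_of_mem hx)
      have hχ := hT (mem_insert_self χ T)
      have hu := hwc.omega_mem (blk_subset v _ hχ)
      have hd : IsCen v (dlt 1 - (omega χ w)⁻¹ • w) :=
        IsCen.dlt.sub (hwc.smul (v.inv_mem hu (hw1 χ hχ)))
      refine ⟨conv e (dlt 1 - (omega χ w)⁻¹ • w), hec.conv hd, fun ψ hψ => ?_, fun x hx => ?_⟩
      · have hψi := (mem_sdiff.1 hψ).1
        rw [omega_conv hψi hd.cls, he1 ψ hψ, omega_sub, omega_smul, omega_dlt hψi, hw0 ψ hψ]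
        simp
      · have hxi := blk_subset v _ (hT hx)
        rw [omega_conv hxi hd.cls]
        rcases mem_insert.1 hx with rfl | hx
        · have h0 : omega x w ≠ 0 := fun h => hw1 x hχ (by rw [h, v.r_zero])
          rw [omega_sub, omega_smul, omega_dlt hxi, inv_mul_cancel₀ h0, sub_self, mul_zero]
        · rw [he0 x hx, zero_mul]
  obtain ⟨e, hec, he1, he0⟩ := he _ subset_rfl
  have : aS (blk v χ₀) = dlt 1 - e := by
    refine eq_of_omega (isCls_aS (blk_subset v _)) (IsCen.dlt.sub hec).cls fun χ hχ => ?_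
    rw [omega_aS (blk_subset v _) hχ, omega_sub, omega_dlt hχ]
    split_ifs with h
    · rw [he0 χ h, sub_zero]
    · rw [he1 χ (mem_sdiff.2 ⟨hχ, h⟩), sub_self]
  rw [this]
  exact IsCen.dlt.sub hec

/-- A set of characters with idempotent over `O`. -/
structure Good (S : Finset (G → ℂ)) : Prop where
  sub : S ⊆ irr G
  cen : IsCen v (aS S)

theorem good_blk (χ : G → ℂ) : Good v (blk v χ) := ⟨blk_subset v χ, isCen_aS_blk v⟩

theorem good_prin : Good v (prin G v) := good_blk v _

variable {v}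

theorem Good.compl {S : Finset (G → ℂ)} (hS : Good v S) : Good v (irr G \ S) :=
  ⟨sdiff_subset, by rw [aS_compl hS.sub]; exact IsCen.dlt.sub hS.cen⟩

/-- The principal idempotent has total `1` and recognises the principal block. -/
theorem sum_aS_prin : ∑ g : G, aS (prin G v) g = 1 := by
  rw [← omega_one, omega_aS (good_prin v).sub one_mem_irr, if_pos (one_mem_prin v)]

end FA.PrincipalBlock

end
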