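import Fermat.Agent.CNGroups.Values
import Mathlib.RingTheory.Valuation.LocalSubring
import Mathlib.RingTheory.LocalRing.ResidueField.Basic
import Mathlib.Algebra.CharP.Lemmas

/-!
# Places of the complex numbers over a prime

A valuation subring of `ℂ` containing the algebraic integers in which the prime `p` is no unit,
with its residue map extended by `0`.
-/

set_option autoImplicit false
set_option linter.style.haveILetI false

noncomputable section

open Finset FA.CharacterTheory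
open scoped Classical

namespace FA.PrincipalBlock

/-- A valuation subring of `ℂ` over `p` containing the algebraic integers. -/
structure Place (p : ℕ) where
  /-- The valuation subring. -/
  O : ValuationSubring ℂ
  int : ∀ z : ℂ, IsIntegral ℤ z → z ∈ O
  prime : (p : ℂ) ∈ O.nonunits

/-- **Places exist.** -/
theorem exists_place {p : ℕ} (hp : p.Prime) : Nonempty (Place p) := by
  set A := (integralClosure ℤ ℂ).toSubring
  set I : Ideal A := Ideal.span {(p : A)}
  have hne : I ≠ ⊤ := fun h => by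
    obtain ⟨u, hu⟩ := isUnit_iff_exists_inv.1 (Ideal.span_singleton_eq_top.1 h)
    have hu' : (p : ℂ) * (u : ℂ) = 1 := by exact_mod_cast congrArg Subtype.val hu
    have hq : algebraMap ℚ ℂ ((1 : ℚ) / p) = (u : ℂ) := by
      rw [map_div₀, map_one, map_natCast, ← hu',
        mul_div_cancel_left₀ _ (Nat.cast_ne_zero.2 hp.ne_zero)]
    have hi : IsIntegral ℤ (u : ℂ) := u.2
    rw [← hq, isIntegral_algebraMap_iff (algebraMap ℚ ℂ).injective] at hi
    obtain ⟨m, hm⟩ := IsIntegrallyClosed.isIntegral_iff.1 hi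
    rw [eq_intCast, eq_div_iff (Nat.cast_ne_zero.2 hp.ne_zero)] at hm
    have h1 : (p : ℤ) ∣ 1 := ⟨m, by rw [mul_comm]; exact_mod_cast hm.symm⟩
    exact hp.ne_one (Nat.dvd_one.1 (Int.natCast_dvd_natCast.1 h1))
  obtain ⟨B, hB, hI⟩ := Ideal.image_subset_nonunits_valuationSubring I hne
  refine ⟨⟨B, fun z hz => hB hz, hI ⟨(p : A), Ideal.mem_span_singleton_self _, ?_⟩⟩⟩
  simp

variable {p : ℕ} (v : Place p)

/-- The residue field. -/
abbrev Place.k : Type := IsLocalRing.ResidueField v.O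

instance Place.charP [hp : Fact p.Prime] : CharP v.k p := by
  refine (CharP.charP_iff_prime_eq_zero hp.out).2 ?_
  rw [← map_natCast (IsLocalRing.residue v.O), IsLocalRing.residue_eq_zero_iff,
    ← ValuationSubring.coe_mem_nonunits_iff]
  simpa using v.prime

/-- The residue map, extended by `0`. -/
def Place.r (z : ℂ) : v.k := if h : z ∈ v.O then IsLocalRing.residue v.O ⟨z, h⟩ else 0

theorem Place.r_coe (x : v.O) : v.r x = IsLocalRing.residue v.O x := dif_pos x.2

theorem Place.r_zero : v.r 0 = 0 := (v.r_coe 0).trans (map_zero _)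

theorem Place.r_one : v.r 1 = 1 := (v.r_coe 1).trans (map_one _)

theorem Place.r_add {a b : ℂ} (ha : a ∈ v.O) (hb : b ∈ v.O) : v.r (a + b) = v.r a + v.r b := by
  rw [v.r_coe ⟨a, ha⟩, v.r_coe ⟨b, hb⟩, ← map_add]
  exact v.r_coe (⟨a, ha⟩ + ⟨b, hb⟩)

theorem Place.r_mul {a b : ℂ} (ha : a ∈ v.O) (hb : b ∈ v.O) : v.r (a * b) = v.r a * v.r b := by
  rw [v.r_coe ⟨a, ha⟩, v.r_coe ⟨b, hb⟩, ← map_mul]
  exact v.r_coe (⟨a, ha⟩ * ⟨b, hb⟩)

theorem Place.r_sub {a b : ℂ} (ha : a ∈ v.O) (hb : b ∈ v.O) : v.r (a - b) = v.r a - v.r b := by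
  rw [v.r_coe ⟨a, ha⟩, v.r_coe ⟨b, hb⟩, ← map_sub]
  exact v.r_coe (⟨a, ha⟩ - ⟨b, hb⟩)

theorem Place.r_sum {ι : Type*} (s : Finset ι) {f : ι → ℂ} (hf : ∀ i ∈ s, f i ∈ v.O) :
    v.r (∑ i ∈ s, f i) = ∑ i ∈ s, v.r (f i) := by
  induction s using Finset.induction_on with
  | empty => simp [v.r_zero]
  | insert a s ha ih =>
    rw [sum_insert ha, sum_insert ha, v.r_add (hf a (mem_insert_self a s))
      (sum_mem fun i hi => hf i (mem_insert_of_mem hi)),
      ih fun i hi => hf i (mem_insert_of_mem hi)]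

theorem Place.r_natCast (n : ℕ) : v.r (n : ℂ) = (n : v.k) := by
  have h := v.r_coe (n : v.O)
  rw [map_natCast] at h
  simpa using h

theorem Place.r_intCast (n : ℤ) : v.r (n : ℂ) = (n : v.k) := by
  have h := v.r_coe (n : v.O)
  rw [map_intCast] at h
  simpa using h

theorem Place.inv_mem {z : ℂ} (hz : z ∈ v.O) (h : v.r z ≠ 0) : z⁻¹ ∈ v.O := by
  rw [v.r_coe ⟨z, hz⟩, IsLocalRing.residue_ne_zero_iff_isUnit] at h
  obtain ⟨u, hu⟩ := h
  have he : z * ((↑u⁻¹ : v.O) : ℂ) = 1 := by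
    have h1 := congrArg Subtype.val u.mul_inv
    rw [hu] at h1
    simpa using h1
  rw [inv_eq_of_mul_eq_one_right he]
  exact (↑u⁻¹ : v.O).2

theorem Place.r_inv {z : ℂ} (hz : z ∈ v.O) (h : v.r z ≠ 0) : v.r z⁻¹ = (v.r z)⁻¹ := by
  have hz0 : z ≠ 0 := fun h0 => h (by rw [h0, v.r_zero])
  refine eq_inv_of_mul_eq_one_right ?_
  rw [← v.r_mul hz (v.inv_mem hz h), mul_inv_cancel₀ hz0, v.r_one]

theorem Place.inv_natCast_mem [hp : Fact p.Prime] {n : ℕ} (h : ¬ p ∣ n) : (n : ℂ)⁻¹ ∈ v.O :=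
  v.inv_mem (natCast_mem _ n) (by rwa [v.r_natCast, Ne, CharP.cast_eq_zero_iff v.k p])

theorem Place.int_eq_zero_iff [Fact p.Prime] {n : ℤ} : v.r (n : ℂ) = 0 ↔ (p : ℤ) ∣ n := by
  rw [v.r_intCast, CharP.intCast_eq_zero_iff v.k p]

/-- Roots of unity of `p`-power order reduce to `1`. -/
theorem Place.r_root [hp : Fact p.Prime] {z : ℂ} {j : ℕ} (hz : z ^ p ^ j = 1) :
    z ∈ v.O ∧ v.r z = 1 := by
  have hm : z ∈ v.O := v.int _ (IsIntegral.of_pow (pow_pos hp.out.pos j)
    (by rw [hz]; exact isIntegral_one))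
  refine ⟨hm, (iterateFrobenius v.k p j).injective ?_⟩
  rw [iterateFrobenius_def, iterateFrobenius_def, one_pow, v.r_coe ⟨z, hm⟩, ← map_pow,
    show (⟨z, hm⟩ : v.O) ^ p ^ j = 1 from Subtype.ext hz, map_one]

/-- The values of the irreducible characters are in `O`. -/
theorem Place.irr_mem {G : Type*} [Group G] [Fintype G] {χ : G → ℂ} (hχ : χ ∈ irr G) (g : G) :
    χ g ∈ v.O :=
  v.int _ (FA.CNGroups.isIntegral_of_mem_unityRing Nat.card_pos
    (FA.CNGroups.irr_mem_unityRing hχ g))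

/-- **Elements of `p`-power order** do not count modulo the place. -/
theorem Place.irr_pElement [hp : Fact p.Prime] {G : Type*} [Group G] [Fintype G] {χ : G → ℂ}
    (hχ : χ ∈ irr G) {g : G} {j : ℕ} (hg : g ^ p ^ j = 1) : v.r (χ g) = v.r (χ 1) := by
  obtain ⟨s, c, w, hw, h⟩ := FA.CNGroups.exists_eigen hχ g
  have hw' : ∀ i ∈ s, w i ∈ v.O := fun i hi =>
    v.int _ (IsIntegral.of_pow (Nat.card_pos (α := G)) (by rw [hw i hi]; exact isIntegral_one))
  have key : ∀ n : ℕ, v.r (χ (g ^ n)) = ∑ i ∈ s, (c i : v.k) * v.r (w i) ^ n := by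
    intro n
    rw [h n, v.r_sum _ fun i hi => mul_mem (intCast_mem _ _) (pow_mem (hw' i hi) n)]
    refine sum_congr rfl fun i hi => ?_
    rw [v.r_mul (intCast_mem _ _) (pow_mem (hw' i hi) n), v.r_intCast, v.r_coe ⟨_, hw' i hi⟩,
      ← map_pow]
    congr 1
    exact v.r_coe (⟨w i, hw' i hi⟩ ^ n)
  refine (iterateFrobenius v.k p j).injective ?_
  have h1 := key 1
  rw [pow_one] at h1
  have h2 := key (p ^ j)
  rw [hg] at h2
  rw [h1, map_sum]
  simp only [map_mul, map_intCast, pow_one, iterateFrobenius_def]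
  rw [← h2]
  obtain ⟨d, -, hd⟩ := irr_one hχ
  rw [hd, v.r_natCast, ← iterateFrobenius_def, map_natCast]

end FA.PrincipalBlock

end
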