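import Fermat.Agent.PrincipalBlock.Place
import Mathlib.LinearAlgebra.Matrix.Trace
import Mathlib.LinearAlgebra.Matrix.NonsingularInverse
import Mathlib.RingTheory.RootsOfUnity.Complex

/-!
# A vanishing trace

Let `f` be an idempotent matrix over `O` commuting with `x`, of `p`-power order, and congruent to
`f (∑ i < p, x ^ i D x ^ (-i)) f` for some `D` commuting with `x ^ p`. Then `f x` has trace `0`,
also after multiplication by a commuting matrix of order prime to `p`.
-/

set_option autoImplicit false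
set_option linter.style.haveILetI false

noncomputable section

open Finset
open scoped Classical

namespace FA.PrincipalBlock

variable {p : ℕ} (v : Place p) {n : Type*} [Fintype n]

/-- The matrices over `O`. -/
def Place.mat (n : Type*) [Fintype n] : Subring (Matrix n n ℂ) :=
  (v.O.subtype.mapMatrix (m := n)).range

/-- The reduction of a matrix. -/
def Place.rm (A : Matrix n n ℂ) : Matrix n n v.k := A.map v.r

variable {v}

theorem mem_mat_iff {A : Matrix n n ℂ} : A ∈ v.mat n ↔ ∀ i j, A i j ∈ v.O := by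
  constructor
  · rintro ⟨B, rfl⟩ i j
    exact (B i j).2
  · exact fun h => ⟨Matrix.of fun i j => ⟨A i j, h i j⟩, rfl⟩

theorem rm_map (B : Matrix n n v.O) :
    v.rm (v.O.subtype.mapMatrix B) = (IsLocalRing.residue v.O).mapMatrix B :=
  Matrix.ext fun i j => v.r_coe (B i j)

theorem rm_mul {A B : Matrix n n ℂ} (hA : A ∈ v.mat n) (hB : B ∈ v.mat n) :
    v.rm (A * B) = v.rm A * v.rm B := by
  obtain ⟨A, rfl⟩ := hA
  obtain ⟨B, rfl⟩ := hB
  rw [← map_mul, rm_map, rm_map, rm_map, map_mul]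

theorem rm_add {A B : Matrix n n ℂ} (hA : A ∈ v.mat n) (hB : B ∈ v.mat n) :
    v.rm (A + B) = v.rm A + v.rm B := by
  obtain ⟨A, rfl⟩ := hA
  obtain ⟨B, rfl⟩ := hB
  rw [← map_add, rm_map, rm_map, rm_map, map_add]

theorem rm_sub {A B : Matrix n n ℂ} (hA : A ∈ v.mat n) (hB : B ∈ v.mat n) :
    v.rm (A - B) = v.rm A - v.rm B := by
  obtain ⟨A, rfl⟩ := hA
  obtain ⟨B, rfl⟩ := hB
  rw [← map_sub, rm_map, rm_map, rm_map, map_sub]

theorem rm_one : v.rm (1 : Matrix n n ℂ) = 1 := by
  conv_lhs => rw [← map_one (v.O.subtype.mapMatrix (m := n))]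
  rw [rm_map, map_one]

theorem exists_inverse {A : Matrix n n ℂ} (hA : A ∈ v.mat n) (h : v.rm A = 1) :
    ∃ B ∈ v.mat n, A * B = 1 ∧ B * A = 1 := by
  obtain ⟨A, rfl⟩ := hA
  rw [rm_map] at h
  have hdet : IsUnit A.det := by
    rw [← IsLocalRing.residue_ne_zero_iff_isUnit, RingHom.map_det, h, Matrix.det_one]
    exact one_ne_zero
  exact ⟨v.O.subtype.mapMatrix A⁻¹, ⟨_, rfl⟩,
    by rw [← map_mul, Matrix.mul_nonsing_inv _ hdet, map_one],
    by rw [← map_mul, Matrix.nonsing_inv_mul _ hdet, map_one]⟩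

theorem smul_mem_mat {A : Matrix n n ℂ} (hA : A ∈ v.mat n) {c : ℂ} (hc : c ∈ v.O) :
    c • A ∈ v.mat n :=
  mem_mat_iff.2 fun i j => mul_mem hc (mem_mat_iff.1 hA i j)

theorem rm_smul {A : Matrix n n ℂ} (hA : A ∈ v.mat n) {c : ℂ} (hc : c ∈ v.O) :
    v.rm (c • A) = v.r c • v.rm A :=
  Matrix.ext fun i j => v.r_mul hc (mem_mat_iff.1 hA i j)

theorem rm_pow {A : Matrix n n ℂ} (hA : A ∈ v.mat n) (i : ℕ) : v.rm (A ^ i) = v.rm A ^ i := by
  induction i with
  | zero => simp [rm_one]
  | succ i ih => rw [pow_succ, pow_succ, rm_mul (pow_mem hA i) hA, ih]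

theorem rm_sum {ι : Type*} (s : Finset ι) {A : ι → Matrix n n ℂ} (hA : ∀ i ∈ s, A i ∈ v.mat n) :
    v.rm (∑ i ∈ s, A i) = ∑ i ∈ s, v.rm (A i) := by
  induction s using Finset.induction_on with
  | empty => ext i j; simp [Place.rm, v.r_zero]
  | insert a s ha ih =>
    rw [sum_insert ha, sum_insert ha, rm_add (hA a (mem_insert_self a s))
      (sum_mem fun i hi => hA i (mem_insert_of_mem hi)),
      ih fun i hi => hA i (mem_insert_of_mem hi)]

/-- The average of the first `m` powers. -/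
def avgPow (x : Matrix n n ℂ) (m : ℕ) : Matrix n n ℂ := (m : ℂ)⁻¹ • ∑ i ∈ range m, x ^ i

theorem sum_range_shift {M : Type*} [AddCommMonoid M] (F : ℕ → M) {m : ℕ}
    (h : ∀ i, F (i + m) = F i) : ∀ l, ∑ i ∈ range m, F (i + l) = ∑ i ∈ range m, F i := by
  intro l
  induction l with
  | zero => rfl
  | succ l ih =>
    rw [← ih]
    have h1 : ∑ i ∈ range m, F (i + (l + 1)) + F (0 + l) =
        ∑ i ∈ range m, F (i + l) + F (m + l) := by
      rw [← sum_range_succ (fun i => F (i + l)) m, sum_range_succ' (fun i => F (i + l)) m]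
      simp only [add_assoc, add_comm 1 l]
    rcases Nat.eq_zero_or_pos m with rfl | hm
    · simp
    · have h2 : F (m + l) = F (0 + l) := by rw [add_comm m l, h, zero_add]
      rw [h2] at h1
      have key : ∀ g : ℕ → M, ∑ i ∈ range m, g i = g 0 + ∑ i ∈ range (m - 1), g (i + 1) :=
        fun g => by
          conv_lhs => rw [← Nat.sub_add_cancel hm, sum_range_succ', add_comm]
      have key' : ∀ g : ℕ → M, ∑ i ∈ range m, g i = ∑ i ∈ range (m - 1), g i + g (m - 1) :=
        fun g => by conv_lhs => rw [← Nat.sub_add_cancel hm, sum_range_succ]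
      rw [key' fun i => F (i + (l + 1)), key fun i => F (i + l)]
      rw [show m - 1 + (l + 1) = l + m by omega, h, zero_add, add_comm]
      congr 1
      exact sum_congr rfl fun i _ => by rw [add_assoc, add_comm 1 l]

theorem mul_avgPow {x : Matrix n n ℂ} {m : ℕ} (h : x ^ m = 1) :
    x * avgPow x m = avgPow x m := by
  rw [avgPow, mul_smul_comm, mul_sum]
  congr 1
  rw [← sum_range_shift (fun i => x ^ i) (fun i => by rw [pow_add, h, mul_one]) 1]
  exact sum_congr rfl fun i _ => by rw [← pow_succ']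

theorem pow_mul_avgPow {x : Matrix n n ℂ} {m : ℕ} (h : x ^ m = 1) (i : ℕ) :
    x ^ i * avgPow x m = avgPow x m := by
  induction i with
  | zero => rw [pow_zero, one_mul]
  | succ i ih => rw [pow_succ, mul_assoc, mul_avgPow h, ih]

theorem Commute.avgPow {x y : Matrix n n ℂ} (h : Commute x y) (m : ℕ) :
    Commute (avgPow x m) y :=
  (Commute.sum_left _ _ _ fun i _ => h.pow_left i).smul_left _

theorem avgPow_idem {x : Matrix n n ℂ} {m : ℕ} (hm : m ≠ 0) (h : x ^ m = 1) :
    avgPow x m * avgPow x m = avgPow x m := by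
  conv_lhs => arg 1; rw [avgPow]
  rw [smul_mul_assoc, sum_mul, sum_congr rfl fun i _ => pow_mul_avgPow h i, sum_const, card_range,
    ← Nat.cast_smul_eq_nsmul ℂ, smul_smul, inv_mul_cancel₀ (Nat.cast_ne_zero.2 hm), one_smul]

theorem avgPow_split (x : Matrix n n ℂ) (a b : ℕ) :
    avgPow x (a * b) = avgPow (x ^ a) b * avgPow x a := by
  have h : ∀ b, ∑ j ∈ range (a * b), x ^ j =
      (∑ l ∈ range b, (x ^ a) ^ l) * ∑ i ∈ range a, x ^ i := by
    intro b
    induction b with
    | zero => simp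
    | succ b ih =>
      rw [Nat.mul_succ, sum_range_add, ih, sum_range_succ, add_mul,
        mul_sum (range a) _ ((x ^ a) ^ b)]
      congr 1
      exact sum_congr rfl fun i _ => by rw [← pow_mul, ← pow_add]
  rw [avgPow, avgPow, avgPow, h, smul_mul_smul_comm, Nat.cast_mul, mul_inv, mul_comm (a : ℂ)⁻¹]

variable [hp : Fact p.Prime]

omit hp in
theorem trace_avgPow_mul (hp0 : p ≠ 0) {l : ℕ} (hl : l ≠ 0) {x a f : Matrix n n ℂ}
    (hx : x ^ (p * l) = 1) (hxf : Commute x f)
    (haf : a * f = a) (htr : ∑ i ∈ range p, x ^ i * a * x ^ (p * l - i) = f) :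
    Matrix.trace (avgPow x (p * l) * f) =
        Matrix.trace (a * (∑ i ∈ range p, x ^ i) * avgPow (x ^ p) l) ∧
      a * (∑ i ∈ range p, x ^ i) * avgPow (x ^ p) l *
          (a * (∑ i ∈ range p, x ^ i) * avgPow (x ^ p) l) =
        a * (∑ i ∈ range p, x ^ i) * avgPow (x ^ p) l := by
  set R := avgPow x (p * l) with hR
  set W := avgPow (x ^ p) l with hW
  have hxP : Commute (∑ i ∈ range p, x ^ i) W :=
    Commute.sum_left _ _ _ fun i _ =>
      ((((Commute.refl x).pow_left p).pow_right i).symm.symm |> fun h =>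
        (Commute.avgPow h l).symm)
  have hX : a * (∑ i ∈ range p, x ^ i) * W = (p : ℂ) • (a * R) := by
    rw [hR, avgPow_split, ← hW]
    conv_rhs => rw [avgPow, mul_smul_comm, mul_smul_comm, smul_smul,
      mul_inv_cancel₀ (Nat.cast_ne_zero.2 hp0), one_smul, ← hxP.eq, ← mul_assoc]
  have hRR : R * R = R := avgPow_idem (Nat.mul_ne_zero hp0 hl) hx
  have hRf : Commute R f := Commute.avgPow hxf _
  have hterm : ∀ i, R * (x ^ i * a * x ^ (p * l - i)) * R = R * a * R := fun i => by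
    have h1 : R * x ^ i = R :=
      ((Commute.avgPow ((Commute.refl x).pow_right i) (p * l)).eq).trans (pow_mul_avgPow hx i)
    calc R * (x ^ i * a * x ^ (p * l - i)) * R = R * x ^ i * a * (x ^ (p * l - i) * R) := by
          simp only [mul_assoc]
      _ = R * a * R := by rw [h1, pow_mul_avgPow hx]
  have hfR : f * R = (p : ℂ) • (R * a * R) := by
    calc f * R = R * f * R := by rw [hRf.eq, mul_assoc, hRR]
      _ = ∑ i ∈ range p, R * (x ^ i * a * x ^ (p * l - i)) * R := by
          rw [← htr, mul_sum, sum_mul]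
      _ = _ := by
          rw [sum_congr rfl fun i _ => hterm i, sum_const, card_range,
            ← Nat.cast_smul_eq_nsmul ℂ]
  refine ⟨?_, ?_⟩
  · rw [hX, hRf.eq, hfR, Matrix.trace_smul, Matrix.trace_smul, Matrix.trace_mul_cycle, hRR,
      Matrix.trace_mul_comm]
  · have h2 : a * f * R = (p : ℂ) • (a * R * a * R) := by
      rw [mul_assoc, hfR, mul_smul_comm]
      simp only [mul_assoc]
    rw [haf] at h2
    rw [hX, smul_mul_smul_comm, ← mul_assoc (a * R), mul_smul, ← h2]

/-- The averages of `x` and of `ω x` have the same trace on `f`, for a `p`-th root of unity `ω`. -/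
theorem trace_avgPow_eq {l : ℕ} (hl : l ≠ 0) {x a f : Matrix n n ℂ} (hxm : x ∈ v.mat n)
    (ham : a ∈ v.mat n) (hx : x ^ (p * l) = 1) (hxf : Commute x f)
    (hxa : Commute (x ^ p) a) (haf : a * f = a)
    (htr : ∑ i ∈ range p, x ^ i * a * x ^ (p * l - i) = f) {ω : ℂ} (hω : ω ^ p = 1) :
    Matrix.trace (avgPow (ω • x) (p * l) * f) = Matrix.trace (avgPow x (p * l) * f) := by
  obtain ⟨hωm, hωr⟩ := v.r_root (z := ω) (j := 1) (by rwa [pow_one])
  set y := ω • x with hy
  have hym : y ∈ v.mat n := smul_mem_mat hxm hωm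
  have hyp : y ^ p = x ^ p := by rw [hy, smul_pow, hω, one_smul]
  have hyl : y ^ (p * l) = 1 := by rw [pow_mul, hyp, ← pow_mul, hx]
  have hytr : ∑ i ∈ range p, y ^ i * a * y ^ (p * l - i) = f := by
    rw [← htr]
    refine sum_congr rfl fun i hi => ?_
    have hip : i ≤ p * l := (le_of_lt (mem_range.1 hi)).trans
      (Nat.le_mul_of_pos_right p (Nat.pos_of_ne_zero hl))
    rw [hy, smul_pow, smul_pow, smul_mul_assoc, smul_mul_assoc, mul_smul_comm, smul_smul,
      ← pow_add, Nat.add_sub_cancel' hip, pow_mul, hω, one_pow, one_smul]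
  obtain ⟨t1, i1⟩ := trace_avgPow_mul hp.out.ne_zero hl hx hxf haf htr
  obtain ⟨t2, i2⟩ := trace_avgPow_mul hp.out.ne_zero hl hyl (hxf.smul_left ω) haf
    hytr
  rw [t1, t2, hyp]
  rw [hyp] at i2
  set W := avgPow (x ^ p) l
  set Q := a * ∑ i ∈ range p, x ^ i
  set Q' := a * ∑ i ∈ range p, y ^ i
  have hQm : Q ∈ v.mat n := mul_mem ham (sum_mem fun i _ => pow_mem hxm i)
  have hQm' : Q' ∈ v.mat n := mul_mem ham (sum_mem fun i _ => pow_mem hym i)
  have hQQ : v.rm Q' = v.rm Q := by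
    rw [rm_mul ham (sum_mem fun i _ => pow_mem hxm i), rm_mul ham
      (sum_mem fun i _ => pow_mem hym i), rm_sum _ (fun i _ => pow_mem hxm i),
      rm_sum _ (fun i _ => pow_mem hym i)]
    congr 1
    refine sum_congr rfl fun i _ => ?_
    rw [rm_pow hxm, rm_pow hym, hy, rm_smul hxm hωm, hωr, one_smul]
  have hWQ : Commute W Q := by
    refine Commute.avgPow (hxa.mul_right (Commute.sum_right _ _ _ fun i _ => ?_)) l
    exact ((Commute.refl x).pow_left p).pow_right i
  have hWQ' : Commute W Q' := by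
    refine Commute.avgPow (hxa.mul_right (Commute.sum_right _ _ _ fun i _ => ?_)) l
    rw [← hyp]
    exact ((Commute.refl y).pow_left p).pow_right i
  set M := 1 + (Q' - Q) * (2 * Q - 1) with hM
  have hMm : M ∈ v.mat n := by
    refine add_mem (one_mem _) (mul_mem (sub_mem hQm' hQm) (sub_mem ?_ (one_mem _)))
    rw [two_mul]
    exact add_mem hQm hQm
  have hMr : v.rm M = 1 := by
    have h2 : 2 * Q - 1 ∈ v.mat n := by
      rw [two_mul]; exact sub_mem (add_mem hQm hQm) (one_mem _)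
    rw [hM, rm_add (one_mem _) (mul_mem (sub_mem hQm' hQm) h2), rm_mul (sub_mem hQm' hQm) h2,
      rm_sub hQm' hQm, hQQ, sub_self, zero_mul, add_zero, rm_one]
  obtain ⟨B, -, hMB, hBM⟩ := exists_inverse hMm hMr
  have hW2 : W * W = W := avgPow_idem hl (by rw [← pow_mul, hx])
  have sq : ∀ {R : Matrix n n ℂ}, Commute W R → R * W * (R * W) = R * W → R * R * W = R * W := by
    intro R hR h
    calc R * R * W = R * R * (W * W) := by rw [hW2]
      _ = R * (R * W) * W := by simp only [mul_assoc]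
      _ = R * W * (R * W) := by
          conv_lhs => rw [← hR.eq]
          simp only [mul_assoc]
      _ = R * W := h
  have sQ := sq hWQ i1
  have sQ' := sq hWQ' i2
  have hMX : M * (Q * W) = Q' * (Q * W) := by
    have h3 : (2 * Q - 1) * (Q * W) = Q * W := by
      rw [sub_mul, one_mul, two_mul, add_mul, ← mul_assoc, sQ, add_sub_cancel_right]
    rw [hM, add_mul, one_mul, mul_assoc (Q' - Q), h3, sub_mul, ← mul_assoc Q, sQ]
    abel
  have hYM : Q' * W * M = Q' * (Q * W) := by
    have hWM : W * M = M * W := by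
      have c1 : Commute W (2 * Q - 1) := by
        rw [two_mul]; exact (hWQ.add_right hWQ).sub_right (Commute.one_right W)
      exact ((Commute.one_right W).add_right ((hWQ'.sub_right hWQ).mul_right c1)).eq
    rw [mul_assoc, hWM, ← mul_assoc, hM]
    have h4 : Q' * (1 + (Q' - Q) * (2 * Q - 1)) =
        Q' + (2 • (Q' * Q' * Q) - Q' * Q' - 2 • (Q' * (Q * Q)) + Q' * Q) := by noncomm_ring
    have e1 : Q' * Q' * Q * W = Q' * (Q * W) := by
      calc Q' * Q' * Q * W = Q' * Q' * W * Q := by rw [mul_assoc, ← hWQ.eq, ← mul_assoc]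
        _ = Q' * W * Q := by rw [sQ']
        _ = Q' * (Q * W) := by rw [mul_assoc, hWQ.eq]
    have e2 : Q' * (Q * Q) * W = Q' * (Q * W) := by rw [mul_assoc, sQ]
    rw [h4]
    simp only [add_mul, sub_mul, smul_mul_assoc, e1, e2, sQ', mul_assoc Q' Q W]
    abel
  calc Matrix.trace (Q' * W) = Matrix.trace (Q' * W * M * B) := by
        rw [mul_assoc _ M B, hMB, mul_one]
    _ = Matrix.trace (M * (Q * W) * B) := by rw [hYM, hMX]
    _ = Matrix.trace (Q * W) := by
        rw [Matrix.trace_mul_comm, ← mul_assoc, hBM, one_mul]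

/-- **The vanishing trace.** -/
theorem trace_eq_zero_aux {j : ℕ} {x D f : Matrix n n ℂ} (hxm : x ∈ v.mat n)
    (hDm : D ∈ v.mat n) (hfm : f ∈ v.mat n) (hx : x ^ p ^ (j + 1) = 1) (hf : f * f = f)
    (hxf : Commute x f) (hxD : Commute (x ^ p) D)
    (htr : v.rm (f * (∑ i ∈ range p, x ^ i * D * x ^ (p ^ (j + 1) - i)) * f) = v.rm f) :
    Matrix.trace (x * f) = 0 := by
  rw [pow_succ'] at hx htr
  set q := p * p ^ j with hq
  set T := ∑ i ∈ range p, x ^ i * D * x ^ (q - i) with hT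
  have hpq : p ≤ q := Nat.le_mul_of_pos_right p (pow_pos hp.out.pos j)
  have hTm : T ∈ v.mat n :=
    sum_mem fun i _ => mul_mem (mul_mem (pow_mem hxm i) hDm) (pow_mem hxm _)
  have hxT : Commute x T := by
    have hper : ∀ i, i ≤ q → x ^ (i + p) * D * x ^ (q - i + (q - p)) = x ^ i * D * x ^ (q - i) := by
      intro i _
      rw [pow_add, mul_assoc (x ^ i), hxD.eq, ← mul_assoc, mul_assoc _ (x ^ p), ← pow_add,
        show p + (q - i + (q - p)) = q - i + q by omega, pow_add _ _ q, hx, mul_one]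
    show x * T = T * x
    have h1 : x * T = ∑ i ∈ range p, x ^ (i + 1) * D * x ^ (q - i) := by
      rw [mul_sum]
      exact sum_congr rfl fun i _ => by rw [← mul_assoc, ← mul_assoc, ← pow_succ']
    have h2 : T * x = ∑ i ∈ range p, x ^ i * D * x ^ (q - i + 1) := by
      rw [sum_mul]
      exact sum_congr rfl fun i _ => by rw [mul_assoc, ← pow_succ]
    rw [h1, h2]
    obtain ⟨m, hm⟩ : ∃ m, p = m + 1 := ⟨p - 1, by have := hp.out.pos; omega⟩
    rw [hm, sum_range_succ, sum_range_succ' (fun i => x ^ i * D * x ^ (q - i + 1))]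
    congr 1
    · refine sum_congr rfl fun i hi => ?_
      have := mem_range.1 hi
      rw [show q - (i + 1) + 1 = q - i by omega]
    · rw [← hm, hxD.eq, mul_assoc, ← pow_add, show p + (q - m) = q + 1 by omega, pow_zero,
        one_mul, Nat.sub_zero]
  set M := 1 - f + f * T * f with hM
  have hMm : M ∈ v.mat n := add_mem (sub_mem (one_mem _) hfm) (mul_mem (mul_mem hfm hTm) hfm)
  have hMr : v.rm M = 1 := by
    rw [hM, rm_add (sub_mem (one_mem _) hfm) (mul_mem (mul_mem hfm hTm) hfm),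
      rm_sub (one_mem _) hfm, htr, sub_add_cancel, rm_one]
  obtain ⟨B, hBm, hMB, hBM⟩ := exists_inverse hMm hMr
  have hxM : Commute x M :=
    ((Commute.one_right x).sub_right hxf).add_right ((hxf.mul_right hxT).mul_right hxf)
  have hfM : f * M = f * T * f := by
    rw [hM, mul_add, mul_sub, mul_one, hf, sub_self, zero_add, ← mul_assoc, ← mul_assoc, hf]
  have hMf : M * f = f * T * f := by
    rw [hM, add_mul, sub_mul, one_mul, hf, sub_self, zero_add, mul_assoc _ f f, hf]
  have inv_comm : ∀ {y : Matrix n n ℂ}, y * M = M * y → y * B = B * y := fun {y} h =>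
    calc y * B = B * (M * y) * B := by rw [← mul_assoc, hBM, one_mul]
      _ = B * y * (M * B) := by rw [← h]; simp only [mul_assoc]
      _ = B * y := by rw [hMB, mul_one]
  have hxB : Commute x B := inv_comm hxM.eq
  have hfB : Commute f B := inv_comm (hfM.trans hMf.symm)
  set a := f * (D * B) * f with ha
  have hxa : Commute (x ^ p) a :=
    ((hxf.pow_left p).mul_right (hxD.mul_right (hxB.pow_left p))).mul_right (hxf.pow_left p)
  have hsum : ∑ i ∈ range p, x ^ i * a * x ^ (q - i) = f := by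
    calc ∑ i ∈ range p, x ^ i * a * x ^ (q - i)
        = ∑ i ∈ range p, f * (x ^ i * D * x ^ (q - i)) * f * B := sum_congr rfl fun i _ => by
          rw [ha]
          simp only [mul_assoc]
          have key : B * (f * x ^ (q - i)) = x ^ (q - i) * (f * B) := by
            rw [← (hxf.pow_left (q - i)).eq, ← mul_assoc, ← (hxB.pow_left (q - i)).eq, mul_assoc,
              hfB.eq]
          rw [key, ← mul_assoc (x ^ i) f, (hxf.pow_left i).eq, mul_assoc]
      _ = f * T * f * B := by rw [← sum_mul, ← sum_mul, ← mul_sum]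
      _ = f := by rw [← hfM, mul_assoc, hMB, mul_one]
  have haf : a * f = a := by rw [ha, mul_assoc, hf]
  have ham : a ∈ v.mat n := mul_mem (mul_mem hfm (mul_mem hDm hBm)) hfm
  -- the Fourier expansion
  have hq0 : q ≠ 0 := (hp.out.pos.trans_le hpq).ne'
  obtain ⟨ζ, hζ⟩ : ∃ ζ : ℂ, IsPrimitiveRoot ζ q := ⟨_, Complex.isPrimitiveRoot_exp q hq0⟩
  set F : ℕ → ℂ := fun i => (ζ ^ i)⁻¹ * Matrix.trace (avgPow (ζ ^ i • x) q * f)
  have hpow : ∀ i, (ζ ^ i • x) ^ q = 1 := fun i => by
    rw [smul_pow, hx, ← pow_mul, mul_comm, pow_mul, hζ.pow_eq_one, one_pow, one_smul]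
  have hsumavg : ∑ i ∈ range q, avgPow (ζ ^ i • x) q = 1 := by
    simp only [avgPow, ← smul_sum, smul_pow, ← pow_mul]
    rw [sum_comm]
    simp only [← sum_smul]
    have : ∀ m ∈ range q, ∑ i ∈ range q, ζ ^ (i * m) = if m = 0 then (q : ℂ) else 0 := by
      intro m hm
      simp_rw [mul_comm _ m, pow_mul]
      split_ifs with h0
      · simp [h0]
      · have hne : ζ ^ m ≠ 1 := hζ.pow_ne_one_of_pos_of_lt h0 (mem_range.1 hm)
        rw [geom_sum_eq hne, ← pow_mul, mul_comm, pow_mul, hζ.pow_eq_one, one_pow, sub_self,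
          zero_div]
    rw [sum_congr rfl fun m hm => by rw [this m hm]]
    simp only [ite_smul, zero_smul, sum_ite_eq', mem_range, Nat.pos_of_ne_zero hq0, if_true,
      pow_zero, smul_smul, inv_mul_cancel₀ (Nat.cast_ne_zero.2 hq0 : (q : ℂ) ≠ 0), one_smul]
  have hFsum : Matrix.trace (x * f) = ∑ i ∈ range q, F i := by
    conv_lhs => rw [← one_mul (x * f), ← hsumavg, sum_mul, Matrix.trace_sum]
    refine sum_congr rfl fun i _ => ?_
    have hc : ζ ^ i ≠ 0 := pow_ne_zero _ (hζ.ne_zero hq0)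
    show _ = (ζ ^ i)⁻¹ * _
    rw [← smul_eq_mul (a := (ζ ^ i)⁻¹), ← Matrix.trace_smul]
    congr 1
    have h1 := mul_avgPow (hpow i)
    rw [smul_mul_assoc] at h1
    rw [← mul_assoc, (Commute.avgPow ((Commute.refl x).smul_left (ζ ^ i)) q).eq,
      show x * avgPow (ζ ^ i • x) q = (ζ ^ i)⁻¹ • (ζ ^ i • (x * avgPow (ζ ^ i • x) q)) from
        (inv_smul_smul₀ hc _).symm, h1, smul_mul_assoc]
  have hω : (ζ ^ p ^ j) ^ p = 1 := by rw [← pow_mul, mul_comm, ← hq, hζ.pow_eq_one]
  have hshift : ∀ i, F (i + p ^ j) = (ζ ^ p ^ j)⁻¹ * F i := by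
    intro i
    obtain ⟨hzm, -⟩ := v.r_root (z := ζ ^ i) (j := j + 1) (by
      rw [pow_succ', ← hq, ← pow_mul, mul_comm, pow_mul, hζ.pow_eq_one, one_pow])
    simp only [F]
    rw [← mul_assoc, ← mul_inv, ← pow_add, add_comm (p ^ j) i]
    congr 1
    rw [pow_add, mul_comm (ζ ^ i), ← smul_smul]
    refine trace_avgPow_eq (a := a) (pow_ne_zero _ hp.out.ne_zero) (smul_mem_mat hxm hzm) ham
      (hpow i) (hxf.smul_left _) ?_ haf ?_ hω
    · rw [smul_pow]
      exact hxa.smul_left _
    · refine Eq.trans (sum_congr rfl fun l hl => ?_) hsum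
      rw [smul_pow, smul_pow, smul_mul_assoc, smul_mul_assoc, mul_smul_comm, smul_smul, ← pow_add,
        ← hq, Nat.add_sub_cancel' ((le_of_lt (mem_range.1 hl)).trans hpq), ← pow_mul, mul_comm i,
        pow_mul, hζ.pow_eq_one, one_pow, one_smul]
  have hper : ∀ i, F (i + q) = F i := fun i => by
    simp only [F, pow_add, hζ.pow_eq_one, mul_one]
  have h := sum_range_shift F hper (p ^ j)
  rw [sum_congr rfl fun i _ => hshift i, ← mul_sum, ← hFsum] at h
  have hne : (ζ ^ p ^ j)⁻¹ - 1 ≠ 0 := by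
    rw [sub_ne_zero, ne_eq, inv_eq_one]
    refine hζ.pow_ne_one_of_pos_of_lt (pow_ne_zero _ hp.out.ne_zero) ?_
    exact lt_mul_left (pow_pos hp.out.pos j) hp.out.one_lt
  refine (mul_eq_zero.1 (show ((ζ ^ p ^ j)⁻¹ - 1) * Matrix.trace (x * f) = 0
    from ?_)).resolve_left hne
  rw [sub_mul, h, one_mul, sub_self]

/-- **The vanishing trace, with a factor of order prime to `p`.** -/
theorem trace_eq_zero {j m : ℕ} (hm : ¬ p ∣ m) {x S D f : Matrix n n ℂ} (hxm : x ∈ v.mat n)
    (hSm : S ∈ v.mat n) (hDm : D ∈ v.mat n) (hfm : f ∈ v.mat n) (hx : x ^ p ^ (j + 1) = 1)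
    (hS : S ^ m = 1) (hf : f * f = f) (hxS : Commute x S) (hxf : Commute x f) (hSf : Commute S f)
    (hxD : Commute (x ^ p) D)
    (htr : v.rm (f * (∑ i ∈ range p, x ^ i * D * x ^ (p ^ (j + 1) - i)) * f) = v.rm f) :
    Matrix.trace (x * S * f) = 0 := by
  have hm0 : m ≠ 0 := fun h => hm (h ▸ dvd_zero p)
  obtain ⟨ζ, hζ⟩ : ∃ ζ : ℂ, IsPrimitiveRoot ζ m := ⟨_, Complex.isPrimitiveRoot_exp m hm0⟩
  have hζm : ∀ i, ζ ^ i ∈ v.O := fun i => v.int _ (IsIntegral.of_pow (Nat.pos_of_ne_zero hm0) (by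
    rw [← pow_mul, mul_comm, pow_mul, hζ.pow_eq_one, one_pow]; exact isIntegral_one))
  set E : ℕ → Matrix n n ℂ := fun i => avgPow (ζ ^ i • S) m
  have hEm : ∀ i, E i ∈ v.mat n := fun i =>
    smul_mem_mat (sum_mem fun l _ => pow_mem (smul_mem_mat hSm (hζm i)) l)
      (v.inv_natCast_mem hm)
  have hpow : ∀ i, (ζ ^ i • S) ^ m = 1 := fun i => by
    rw [smul_pow, hS, ← pow_mul, mul_comm, pow_mul, hζ.pow_eq_one, one_pow, one_smul]
  have hsum : ∑ i ∈ range m, E i = 1 := by
    simp only [E, avgPow, ← smul_sum, smul_pow, ← pow_mul]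
    rw [sum_comm]
    simp only [← sum_smul]
    have : ∀ l ∈ range m, ∑ i ∈ range m, ζ ^ (i * l) = if l = 0 then (m : ℂ) else 0 := by
      intro l hl
      simp_rw [mul_comm _ l, pow_mul]
      split_ifs with h0
      · simp [h0]
      · have hne : ζ ^ l ≠ 1 := hζ.pow_ne_one_of_pos_of_lt h0 (mem_range.1 hl)
        rw [geom_sum_eq hne, ← pow_mul, mul_comm, pow_mul, hζ.pow_eq_one, one_pow, sub_self,
          zero_div]
    rw [sum_congr rfl fun l hl => by rw [this l hl]]
    simp only [ite_smul, zero_smul, sum_ite_eq', mem_range, Nat.pos_of_ne_zero hm0, if_true,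
      pow_zero, smul_smul, inv_mul_cancel₀ (Nat.cast_ne_zero.2 hm0 : (m : ℂ) ≠ 0), one_smul]
  have hzero : ∀ i, Matrix.trace (x * (f * E i)) = 0 := fun i => by
    have hfE : Commute (E i) f := Commute.avgPow (hSf.smul_left _) m
    have hxE : Commute x (E i) := (Commute.avgPow ((hxS.symm).smul_left _) m).symm
    refine trace_eq_zero_aux (j := j) (D := D) hxm hDm (mul_mem hfm (hEm i)) hx ?_
      (hxf.mul_right hxE) hxD ?_
    · rw [mul_assoc, ← mul_assoc (E i), hfE.eq, ← mul_assoc, ← mul_assoc, hf, mul_assoc,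
        avgPow_idem hm0 (hpow i)]
    · set T := ∑ l ∈ range p, x ^ l * D * x ^ (p ^ (j + 1) - l)
      have hTm : T ∈ v.mat n :=
        sum_mem fun l _ => mul_mem (mul_mem (pow_mem hxm l) hDm) (pow_mem hxm _)
      have h1 : f * E i * T * (f * E i) = E i * (f * T * f) * E i := by
        calc f * E i * T * (f * E i) = E i * f * T * (f * E i) := by rw [hfE.eq]
          _ = _ := by simp only [mul_assoc]
      rw [h1, rm_mul (mul_mem (hEm i) (mul_mem (mul_mem hfm hTm) hfm)) (hEm i),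
        rm_mul (hEm i) (mul_mem (mul_mem hfm hTm) hfm), htr, ← rm_mul (hEm i) hfm,
        ← rm_mul (mul_mem (hEm i) hfm) (hEm i), hfE.eq, mul_assoc, avgPow_idem hm0 (hpow i)]
  have hS' : ∀ i, S * E i = (ζ ^ i)⁻¹ • E i := fun i => by
    have h1 := mul_avgPow (hpow i)
    rw [smul_mul_assoc] at h1
    rw [← inv_smul_smul₀ (pow_ne_zero i (hζ.ne_zero hm0)) (S * E i), h1]
  calc Matrix.trace (x * S * f) = ∑ i ∈ range m, Matrix.trace (x * (S * (E i * f))) := by
        rw [← Matrix.trace_sum, ← mul_sum, ← mul_sum, ← sum_mul, hsum, one_mul, mul_assoc]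
    _ = ∑ i ∈ range m, (ζ ^ i)⁻¹ * Matrix.trace (x * (f * E i)) := sum_congr rfl fun i _ => by
        rw [← mul_assoc S, hS', smul_mul_assoc, mul_smul_comm, Matrix.trace_smul, smul_eq_mul,
          (Commute.avgPow (hSf.smul_left (ζ ^ i)) m).eq]
    _ = 0 := sum_eq_zero fun i _ => by rw [hzero, mul_zero]

end FA.PrincipalBlock

end
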