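import Mathlib.GroupTheory.Perm.Cycle.Basic
import Mathlib.RingTheory.Int.Basic
import Mathlib.Tactic.LinearCombination
import Mathlib.Tactic.Ring

/-!
# A set meeting every orbit of `σ` once in every `p` steps
-/

set_option autoImplicit false
set_option linter.style.haveILetI false

noncomputable section

open Finset
open scoped Classical

namespace FA.PrincipalBlock

/-- For a permutation of `p`-power order: a set stable under `σ ^ p`, avoiding the fixed points,
which meets `{σ ^ i x | i < p}` once for every `x` not fixed. -/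
theorem exists_transversal {p : ℕ} (hp : p.Prime) {X : Type*} [Fintype X] (σ : Equiv.Perm X)
    {j : ℕ} (hσ : σ ^ p ^ j = 1) : ∃ D : Finset X, (∀ x, (σ ^ p) x ∈ D ↔ x ∈ D) ∧
      ∀ x, ((range p).filter fun i => (σ ^ i) x ∈ D).card = if σ x = x then 0 else 1 := by
  set r : X → X := fun x => (Quotient.mk (Equiv.Perm.SameCycle.setoid σ) x).out
  have hr : ∀ x, σ.SameCycle (r x) x := fun x =>
    Quotient.exact (s := Equiv.Perm.SameCycle.setoid σ) (Quotient.out_eq _)
  have hrinv : ∀ (i : ℤ) x, r ((σ ^ i) x) = r x := fun i x => by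
    refine congrArg Quotient.out (Quotient.sound (s := Equiv.Perm.SameCycle.setoid σ) ?_)
    exact Equiv.Perm.SameCycle.symm (⟨i, rfl⟩ : σ.SameCycle x ((σ ^ i) x))
  have hfix : ∀ (i : ℤ) x, σ ((σ ^ i) x) = (σ ^ i) x ↔ σ x = x := fun i x => by
    have h : σ ((σ ^ i) x) = (σ ^ i) (σ x) := by
      rw [← Equiv.Perm.mul_apply, ← Equiv.Perm.mul_apply, mul_zpow_self, mul_self_zpow]
    rw [h]
    exact (σ ^ i).injective.eq_iff
  set D : Finset X := univ.filter fun x => σ x ≠ x ∧ ∃ m : ℤ, x = (σ ^ ((p : ℤ) * m)) (r x)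
  have hD : ∀ (i : ℤ) x, (σ ^ i) x ∈ D ↔
      σ x ≠ x ∧ ∃ m : ℤ, (σ ^ i) x = (σ ^ ((p : ℤ) * m)) (r x) := fun i x => by
    simp only [D, mem_filter, mem_univ, true_and, ne_eq, hfix, hrinv]
  refine ⟨D, fun x => ?_, fun x => ?_⟩
  · have h1 := hD p x
    have h0 := hD 0 x
    rw [zpow_natCast] at h1
    rw [zpow_zero, Equiv.Perm.one_apply] at h0
    rw [h1, h0]
    refine and_congr_right fun _ => ⟨fun ⟨m, hm⟩ => ⟨m - 1, ?_⟩, fun ⟨m, hm⟩ => ⟨m + 1, ?_⟩⟩
    · refine (σ ^ p).injective ?_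
      rw [hm, ← zpow_natCast, ← Equiv.Perm.mul_apply, ← zpow_add]
      congr 3
      ring
    · conv_lhs => rw [hm]
      rw [← zpow_natCast, ← Equiv.Perm.mul_apply, ← zpow_add]
      congr 3
      ring
  split_ifs with hx
  · rw [card_eq_zero, filter_eq_empty_iff]
    intro i _ h
    have h' := hD i x
    rw [zpow_natCast] at h'
    exact ((h'.1 h).1 hx)
  obtain ⟨e, he⟩ := hr x
  have hmod : ∀ a : ℤ, (σ ^ a) (r x) = r x → (p : ℤ) ∣ a := fun a ha => by
    by_contra hna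
    obtain ⟨s, t, hst⟩ : IsCoprime a ((p : ℤ) ^ j) :=
      ((Nat.prime_iff_prime_int.1 hp).coprime_iff_not_dvd.2 hna).symm.pow_right
    have h1 : σ (r x) = r x := by
      conv_lhs => rw [show σ = σ ^ (1 : ℤ) from (zpow_one σ).symm, ← hst, zpow_add, zpow_mul',
        mul_comm t, zpow_mul, show σ ^ ((p : ℤ) ^ j) = 1 by exact_mod_cast hσ, one_zpow, mul_one]
      exact Equiv.Perm.zpow_apply_eq_self_of_apply_eq_self ha s
    exact hx (by rw [← he]; exact (hfix e (r x)).2 h1)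
  obtain ⟨i₀, hi₀⟩ : ∃ i₀ : ℕ, (i₀ : ℤ) = (-e) % (p : ℤ) :=
    ⟨((-e) % (p : ℤ)).toNat, Int.toNat_of_nonneg
      (Int.emod_nonneg _ (Int.natCast_ne_zero.2 hp.ne_zero))⟩
  have hi₀' : i₀ < p := by
    have := Int.emod_lt_of_pos (-e) (Int.natCast_pos.2 hp.pos)
    omega
  refine card_eq_one.2 ⟨i₀, Finset.ext fun i => ?_⟩
  simp only [mem_filter, mem_range, mem_singleton]
  have hiff := hD i x
  rw [zpow_natCast] at hiff
  rw [hiff]
  constructor
  · rintro ⟨hi, -, m, hm⟩
    have h1 : (σ ^ ((i : ℤ) + e - p * m)) (r x) = r x := by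
      rw [show (i : ℤ) + e - p * m = -((p : ℤ) * m) + ((i : ℤ) + e) by ring, zpow_add,
        Equiv.Perm.mul_apply, zpow_add, Equiv.Perm.mul_apply, he, zpow_natCast, hm, zpow_neg,
        Equiv.Perm.inv_def, Equiv.symm_apply_apply]
    have h2 : (p : ℤ) ∣ (i : ℤ) - i₀ := by
      obtain ⟨c, hc⟩ := hmod _ h1
      refine ⟨c + m + (-e) / (p : ℤ), ?_⟩
      have h3 := Int.mul_ediv_add_emod (-e) p
      rw [← hi₀] at h3
      linear_combination hc - h3
    have h4 := Int.eq_zero_of_abs_lt_dvd h2 (by rw [abs_lt]; omega)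
    omega
  · rintro rfl
    refine ⟨hi₀', hx, -((-e) / (p : ℤ)), ?_⟩
    conv_lhs => rw [← he]
    rw [← zpow_natCast, ← Equiv.Perm.mul_apply, ← zpow_add]
    congr 3
    have h3 := Int.mul_ediv_add_emod (-e) p
    rw [← hi₀] at h3
    linear_combination h3

end FA.PrincipalBlock

end
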