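import Fermat.Agent.PrincipalBlock.Central
import Fermat.Agent.PrincipalBlock.Trace
import Fermat.Agent.PrincipalBlock.Transversal
import Fermat.Agent.ThompsonTransfer.PComp

/-!
# Block orthogonality and the criterion for the second main theorem

Both are vanishing traces of operators on the regular module: a left multiplication by an idempotent
composed with a multiplication by an element of `p`-power order and one of order prime to `p`.
-/

set_option autoImplicit false
set_option linter.style.haveILetI false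

noncomputable section

open Finset FA.CharacterTheory FA.Thompson
open scoped Classical

namespace FA.PrincipalBlock

variable {G : Type*} [Group G] [Fintype G]

/-- Left convolution on the regular module. -/
def lm (f : G → ℂ) : Matrix G G ℂ := Matrix.of fun g h => f (g * h⁻¹)

/-- Right multiplication on the regular module. -/
def rt (y : G) : Matrix G G ℂ := Matrix.of fun g h => if g = h * y then 1 else 0

omit [Fintype G] in
theorem lm_apply (f : G → ℂ) (g h : G) : lm f g h = f (g * h⁻¹) := rfl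

omit [Fintype G] in
theorem rt_apply (y g h : G) : rt y g h = if g = h * y then 1 else 0 := rfl

theorem lm_mul (f f' : G → ℂ) : lm f * lm f' = lm (conv f f') := by
  ext g h
  simp only [Matrix.mul_apply, lm_apply, conv]
  refine Fintype.sum_equiv ((Equiv.inv G).trans (Equiv.mulLeft g)) _ _ fun k => ?_
  simp [mul_assoc]

omit [Fintype G] in
theorem lm_injective : Function.Injective (lm : (G → ℂ) → Matrix G G ℂ) := fun f f' h =>
  funext fun g => by simpa [lm_apply] using congrFun (congrFun h g) 1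

theorem conv_assoc (a b c : G → ℂ) : conv (conv a b) c = conv a (conv b c) :=
  lm_injective (by rw [← lm_mul, ← lm_mul, ← lm_mul, ← lm_mul, mul_assoc])

theorem conv_dlt_left (a : G) (f : G → ℂ) : conv (dlt a) f = fun g => f (a⁻¹ * g) := by
  funext g
  simp [conv, dlt]

theorem conv_dlt_right (a : G) (f : G → ℂ) : conv f (dlt a) = fun g => f (g * a⁻¹) := by
  funext g
  simp only [conv, dlt, mul_ite, mul_one, mul_zero]
  rw [sum_eq_single (g * a⁻¹) (fun h _ hne => if_neg fun e => hne (by rw [← e]; group))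
    fun h => absurd (mem_univ _) h, if_pos (by group)]

theorem conv_comm_cls {F : G → ℂ} (hF : IsCls F) (e : G → ℂ) : conv e F = conv F e := by
  funext g
  refine Fintype.sum_equiv ((Equiv.inv G).trans (Equiv.mulLeft g)) _ _ fun h => ?_
  simp only [Equiv.trans_apply, Equiv.inv_apply, Equiv.coe_mulLeft, mul_inv_rev, inv_inv,
    inv_mul_cancel_right]
  rw [← hF h (h⁻¹ * g), show h * (h⁻¹ * g) * h⁻¹ = g * h⁻¹ by group, mul_comm]

omit [Fintype G] in
theorem lm_dlt_one : lm (dlt (1 : G)) = 1 := by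
  ext g h
  simp [lm_apply, dlt, Matrix.one_apply, mul_inv_eq_one]

omit [Fintype G] in
theorem rt_one : rt (1 : G) = 1 := by
  ext g h
  simp [rt_apply, Matrix.one_apply]

theorem rt_mul (y y' : G) : rt y * rt y' = rt (y' * y) := by
  ext g h
  simp [Matrix.mul_apply, rt_apply, mul_assoc]

theorem rt_pow (y : G) (i : ℕ) : rt y ^ i = rt (y ^ i) := by
  induction i with
  | zero => simp [rt_one]
  | succ i ih => rw [pow_succ', ih, rt_mul, pow_succ]

theorem lm_mul_dlt (a b : G) : conv (dlt a) (dlt b) = dlt (a * b) := by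
  rw [conv_dlt_left]
  funext g
  simp only [dlt]
  congr 1
  rw [inv_mul_eq_iff_eq_mul]

theorem lm_dlt_pow (a : G) (i : ℕ) : lm (dlt a) ^ i = lm (dlt (a ^ i)) := by
  induction i with
  | zero => simp [lm_dlt_one]
  | succ i ih => rw [pow_succ, ih, lm_mul, lm_mul_dlt, pow_succ]

theorem lm_comm_rt (f : G → ℂ) (y : G) : Commute (lm f) (rt y) := by
  ext g h
  simp only [Matrix.mul_apply, lm_apply, rt_apply, mul_ite, mul_one, mul_zero, ite_mul, one_mul,
    zero_mul, sum_ite_eq', mem_univ, if_true]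
  rw [sum_eq_single (g * y⁻¹) (fun k _ hne => if_neg fun e => hne (by rw [e]; group))
    fun h => absurd (mem_univ _) h, if_pos (by group)]
  congr 1
  group

theorem trace_lm_rt (f : G → ℂ) (y : G) :
    Matrix.trace (lm f * rt y) = ∑ g, f (g * y⁻¹ * g⁻¹) := by
  simp only [Matrix.trace, Matrix.diag_apply, Matrix.mul_apply, lm_apply, rt_apply, mul_ite,
    mul_one, mul_zero]
  refine sum_congr rfl fun g _ => ?_
  rw [sum_eq_single (g * y) (fun k _ hne => if_neg fun e => hne e) fun h => absurd (mem_univ _) h,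
    if_pos rfl, mul_inv_rev, ← mul_assoc]

/-- The value of an idempotent along a twisted class. -/
theorem sum_aS_conj {S : Finset (G → ℂ)} (hS : S ⊆ irr G) (z y : G) :
    ∑ g, aS S (z⁻¹ * (g * y⁻¹ * g⁻¹)) = ∑ χ ∈ S, χ z * χ y := by
  have hN : (Nat.card G : ℂ) ≠ 0 := Nat.cast_ne_zero.2 Nat.card_pos.ne'
  simp only [aS, coef, mul_one]
  rw [← mul_sum, sum_comm, mul_sum]
  refine sum_congr rfl fun χ hχ => ?_
  have h := FA.GlaubermanCorrespondence.card_mul_mul (hS hχ) z y
  rw [← mul_sum, sum_congr rfl fun g _ => show χ (z⁻¹ * (g * y⁻¹ * g⁻¹))⁻¹ =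
      χ (z * (g * y * g⁻¹)) by
    rw [← irr_conj (hS hχ) z (z⁻¹ * (g * y⁻¹ * g⁻¹))⁻¹]
    congr 1
    group, ← h, inv_mul_cancel_left₀ hN]

variable {p : ℕ} {v : Place p}

theorem lm_mem {f : G → ℂ} (hf : ∀ g, f g ∈ v.O) : lm f ∈ v.mat G :=
  mem_mat_iff.2 fun _ _ => hf _

theorem rt_mem (y : G) : rt y ∈ v.mat G :=
  mem_mat_iff.2 fun _ _ => by rw [rt_apply]; split_ifs <;> simp [one_mem, zero_mem]

omit [Fintype G] in
omit [Group G] in
theorem dlt_mem (a g : G) : dlt a g ∈ v.O := by
  unfold dlt; split_ifs <;> simp [one_mem, zero_mem]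

theorem conv_aS_self {S : Finset (G → ℂ)} (hS : S ⊆ irr G) : conv (aS S) (aS S) = aS S := by
  refine eq_of_omega (isCls_conv (isCls_aS hS) (isCls_aS hS)) (isCls_aS hS) fun χ hχ => ?_
  rw [omega_conv hχ (isCls_aS hS), omega_aS hS hχ]
  split_ifs <;> simp

variable [hp : Fact p.Prime]

omit [Fintype G] hp in
theorem exists_pow_succ {a : G} (h : ∃ k, a ^ p ^ k = 1) : ∃ j, a ^ p ^ (j + 1) = 1 := by
  obtain ⟨k, hk⟩ := h
  exact ⟨k, by rw [pow_succ, pow_mul, hk, one_pow]⟩

/-- **Block orthogonality**: `p`-regular against `p`-singular elements. -/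
theorem Good.orth {S : Finset (G → ℂ)} (hS : Good v S) {x y : G} (hx : Reg p x) (hy : ¬ Reg p y) :
    ∑ χ ∈ S, χ x * χ y = 0 := by
  obtain ⟨u, w, hu, hw, huw, huk, hwreg⟩ := exists_decomp (p := p) y
  obtain ⟨j, hj⟩ := exists_pow_succ huk
  have hu1 : u ≠ 1 := fun h => hy (by rw [huw, h, one_mul]; exact hwreg)
  have hcomm : Commute u w := by
    obtain ⟨a, rfl⟩ := hu
    obtain ⟨b, rfl⟩ := hw
    exact (Commute.refl y).zpow_zpow a b
  set σ : Equiv.Perm G := Equiv.mulRight u⁻¹
  have hσi : ∀ i : ℕ, ∀ g, (σ ^ i) g = g * (u⁻¹) ^ i := fun i g => by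
    induction i generalizing g with
    | zero => simp
    | succ i ih => rw [pow_succ, Equiv.Perm.mul_apply, ih, pow_succ']; simp [σ, mul_assoc]
  obtain ⟨D, hDp, hDc⟩ := exists_transversal hp.out σ (j := j + 1)
    (Equiv.ext fun g => by rw [hσi, inv_pow, hj, inv_one, mul_one]; rfl)
  set d : G → ℂ := fun g => if g ∈ D then 1 else 0
  set Dm : Matrix G G ℂ := Matrix.diagonal d
  have hrd : ∀ a b : G, b * a = 1 → rt a * Dm * rt b = Matrix.diagonal fun g => d (g * a⁻¹) := by
    intro a b hab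
    ext g h
    rw [Matrix.mul_apply, sum_eq_single (h * b) (fun k _ hne => by
      rw [rt_apply b, if_neg hne, mul_zero]) fun h => absurd (mem_univ _) h]
    rw [rt_apply, if_pos rfl, mul_one, Matrix.mul_diagonal, rt_apply, mul_assoc h b a, hab, mul_one]
    rcases eq_or_ne g h with rfl | hne
    · rw [if_pos rfl, one_mul, Matrix.diagonal_apply_eq, eq_inv_of_mul_eq_one_left hab]
    · rw [if_neg hne, zero_mul, Matrix.diagonal_apply_ne _ hne]
  set f := lm (aS S)
  set Sx := lm (dlt x) * rt w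
  have hfm : f ∈ v.mat G := lm_mem hS.cen.mem
  have key := trace_eq_zero (v := v) (j := j) (m := orderOf x * orderOf w) (x := rt u) (S := Sx)
    (D := Dm) (f := f) (fun h => (hp.out.dvd_mul.1 h).elim hx hwreg) (rt_mem u)
    (mul_mem (lm_mem (dlt_mem x)) (rt_mem w)) ?_ hfm (by rw [rt_pow, hj, rt_one]) ?_
    (by rw [show f * f = lm (conv (aS S) (aS S)) from lm_mul _ _, conv_aS_self hS.sub])
    (Commute.mul_right (lm_comm_rt _ _).symm (by
      show rt u * rt w = rt w * rt u
      rw [rt_mul, rt_mul, hcomm.eq]))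
    (lm_comm_rt _ _).symm ?_ ?_ ?_
  · rw [show rt u * Sx * f = lm (conv (dlt x) (aS S)) * rt (w * u) by
      rw [← lm_mul, ← rt_mul]
      simp only [Sx, f]
      rw [← mul_assoc (rt u), ← (lm_comm_rt (dlt x) u).eq]
      simp only [mul_assoc]
      rw [← (lm_comm_rt (aS S) w).eq, ← mul_assoc (rt u), ← (lm_comm_rt (aS S) u).eq, mul_assoc],
      trace_lm_rt, conv_dlt_left, sum_aS_conj hS.sub, ← hcomm.eq, ← huw] at key
    exact key
  · exact mem_mat_iff.2 fun g h => by
      simp only [Dm, Matrix.diagonal_apply, d]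
      split_ifs <;> simp [one_mem, zero_mem]
  · simp only [Sx]
    rw [(lm_comm_rt _ _).mul_pow, lm_dlt_pow, rt_pow,
      orderOf_dvd_iff_pow_eq_one.1 (dvd_mul_right _ _),
      orderOf_dvd_iff_pow_eq_one.1 (dvd_mul_left _ _), lm_dlt_one, rt_one, one_mul]
  · refine Commute.mul_left ?_ (lm_comm_rt _ _).symm
    show lm (dlt x) * lm (aS S) = lm (aS S) * lm (dlt x)
    rw [lm_mul, lm_mul, conv_comm_cls (isCls_aS hS.sub)]
  · rw [rt_pow]
    show rt (u ^ p) * Dm = Dm * rt (u ^ p)
    ext g h
    simp only [Matrix.diagonal_mul, Matrix.mul_diagonal, Dm, rt_apply]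
    split_ifs with he
    · have h1 := hDp g
      rw [hσi, he, inv_pow, mul_inv_cancel_right] at h1
      simp only [d, he, h1, mul_one, one_mul]
    · simp
  · have hT : ∑ i ∈ range p, rt u ^ i * Dm * rt u ^ (p ^ (j + 1) - i) = 1 := by
      have hpi : ∀ i ∈ range p, u ^ (p ^ (j + 1) - i) * u ^ i = 1 := fun i hi => by
        rw [← pow_add, Nat.sub_add_cancel ((le_of_lt (mem_range.1 hi)).trans
          (Nat.le_self_pow (by omega) p)), hj]
      rw [sum_congr rfl fun i hi => by rw [rt_pow, rt_pow, hrd _ _ (hpi i hi)]]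
      ext g h
      rw [Matrix.sum_apply, Matrix.one_apply]
      simp only [Matrix.diagonal_apply]
      split_ifs with he
      · have hc := hDc g
        rw [if_neg (show σ g ≠ g by simpa [σ] using hu1)] at hc
        have hc' : ∑ i ∈ range p, d (g * (u ^ i)⁻¹) =
            (((range p).filter fun i => (σ ^ i) g ∈ D).card : ℂ) := by
          simp only [d, hσi, inv_pow]
          rw [sum_boole]
        rw [hc', hc, Nat.cast_one]
      · simp
    rw [hT, mul_one, show f * f = lm (conv (aS S) (aS S)) from lm_mul _ _, conv_aS_self hS.sub]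

/-- Extension by `0`. -/
def ext0 (C : Subgroup G) (a : C → ℂ) : G → ℂ := fun g => if h : g ∈ C then a ⟨g, h⟩ else 0

omit [Fintype G] in
theorem ext0_coe (C : Subgroup G) (a : C → ℂ) (c : C) : ext0 C a c = a c := dif_pos c.2

theorem sum_ext0 (C : Subgroup G) (a : C → ℂ) (F : G → ℂ) :
    ∑ g, ext0 C a g * F g = ∑ c : C, a c * F c := by
  rw [← sum_filter_add_sum_filter_not univ (· ∈ C),
    sum_eq_zero (s := univ.filter fun g => ¬g ∈ C) (fun g hg => by
      rw [ext0, dif_neg (mem_filter.1 hg).2, zero_mul]), add_zero,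
    sum_subtype _ (p := (· ∈ C)) (by simp)]
  exact sum_congr rfl fun c _ => by rw [ext0_coe]

theorem conv_ext0 (C : Subgroup G) (a b : C → ℂ) :
    conv (ext0 C a) (ext0 C b) = ext0 C (conv a b) := by
  funext g
  rw [conv, sum_ext0 C a fun h => ext0 C b (h⁻¹ * g)]
  by_cases hg : g ∈ C
  · rw [show ext0 C (conv a b) g = conv a b ⟨g, hg⟩ from dif_pos hg, conv]
    refine sum_congr rfl fun c _ => ?_
    rw [show (c : G)⁻¹ * g = ((c⁻¹ * ⟨g, hg⟩ : C) : G) from rfl, ext0_coe]
  · rw [show ext0 C (conv a b) g = 0 from dif_neg hg]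
    refine sum_eq_zero fun c _ => ?_
    rw [ext0, dif_neg fun h => hg (by simpa using C.mul_mem c.2 h), mul_zero]

/-- **The criterion for the second main theorem.** -/
theorem sum_aS_eq_zero {u : G} (hu : ∃ k, u ^ p ^ k = 1) (C : Subgroup G)
    (hmemC : ∀ g, g ∈ C ↔ g * u = u * g) {S : Finset (G → ℂ)} (hS : Good v S)
    {T : Finset (C → ℂ)} (hT : Good v T)
    (hbr : ∀ c : C, v.r (conv (fun h : C => aS S h) (aS T) c) = 0)
    {s : G} (hs : s ∈ C) (hsr : Reg p s) {χ : G → ℂ} (hχ : χ ∈ S) :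
    ∑ c : C, aS T c * χ (u * s * c) = 0 := by
  obtain ⟨ju, hju⟩ := hu
  set e := ext0 C (aS T) with he
  set F := conv (aS S) e with hF
  have hem : ∀ g, e g ∈ v.O := fun g => by
    simp only [he, ext0]
    split_ifs
    exacts [hT.cen.mem _, zero_mem _]
  have hFm : ∀ g, F g ∈ v.O := fun g => sum_mem fun h _ => mul_mem (hS.cen.mem h) (hem _)
  have hFF : conv F F = F := by
    have hc := conv_comm_cls (isCls_aS hS.sub) e
    rw [hF, conv_assoc, ← conv_assoc e, hc, conv_assoc (aS S) e e, ← conv_assoc,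
      conv_aS_self hS.sub, he, conv_ext0, conv_aS_self hT.sub]
  have hecomm : ∀ a ∈ C, conv (dlt a) e = conv e (dlt a) := fun a ha => by
    rw [conv_dlt_left, conv_dlt_right]
    funext g
    simp only [he, ext0]
    by_cases h : a⁻¹ * g ∈ C
    · have hg : g ∈ C := by simpa using C.mul_mem ha h
      rw [dif_pos h, dif_pos (C.mul_mem hg (C.inv_mem ha)),
        ← isCls_aS hT.sub ⟨a, ha⟩ ⟨a⁻¹ * g, h⟩]
      congr 1
      exact Subtype.ext (by push_cast; group)
    · have hg : g * a⁻¹ ∉ C := fun hg => h (by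
        have h1 := C.mul_mem (C.mul_mem (C.inv_mem ha) hg) ha
        simpa [mul_assoc] using h1)
      rw [dif_neg h, dif_neg hg]
  have hFcomm : ∀ a ∈ C, conv (dlt a) F = conv F (dlt a) := fun a ha => by
    rw [hF, ← conv_assoc, conv_comm_cls (isCls_aS hS.sub) (dlt a), conv_assoc, hecomm a ha,
      ← conv_assoc]
  have huC : u ∈ C := (hmemC u).2 rfl
  have hFconj : ∀ g, F (u⁻¹ * g * u) = F g := fun g => by
    have h := congrFun (hFcomm u huC) (g * u)
    rw [conv_dlt_left, conv_dlt_right] at h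
    simp only [mul_inv_cancel_right] at h
    rw [← h, mul_assoc]
  set σ : Equiv.Perm G := (MulAut.conj u⁻¹).toEquiv
  have hσi : ∀ i : ℕ, ∀ g, (σ ^ i) g = (u ^ i)⁻¹ * g * u ^ i := fun i g => by
    induction i generalizing g with
    | zero => simp
    | succ i ih =>
      rw [pow_succ, Equiv.Perm.mul_apply, ih]
      show (u ^ i)⁻¹ * (u⁻¹ * g * u⁻¹⁻¹) * u ^ i = _
      rw [inv_inv, pow_succ']
      group
  have hFi : ∀ i : ℕ, ∀ g, F ((σ ^ i) g) = F g := fun i g => by
    induction i generalizing g with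
    | zero => simp
    | succ i ih =>
      rw [pow_succ, Equiv.Perm.mul_apply, ih]
      show F (u⁻¹ * g * u⁻¹⁻¹) = F g
      rw [inv_inv, hFconj]
  have hfix : ∀ g, σ g = g ↔ g ∈ C := fun g => by
    show u⁻¹ * g * u⁻¹⁻¹ = g ↔ _
    rw [hmemC, inv_inv, mul_assoc, inv_mul_eq_iff_eq_mul]
  have hsmall : ∀ c ∈ C, v.r (F c) = 0 := fun c hc => by
    rw [← hbr ⟨c, hc⟩]
    congr 1
    have hF' : F c = conv e (aS S) c := by rw [hF, conv_comm_cls (isCls_aS hS.sub)]
    rw [hF', conv, he, sum_ext0 C (aS T) fun h => aS S (h⁻¹ * c),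
      conv_comm_cls (isCls_aS hT.sub) fun h : C => aS S h]
    rfl
  -- the vanishing for every `y`
  have hzero : ∀ y, ∑ χ ∈ S, (∑ c : C, aS T c * χ (u * s * c)) * χ y = 0 := by
    intro y
    obtain ⟨a, w, ha, hw, haw, ⟨ja, hja⟩, hwreg⟩ := exists_decomp (p := p) y
    have hcomm : Commute a w := by
      obtain ⟨k, rfl⟩ := ha
      obtain ⟨l, rfl⟩ := hw
      exact (Commute.refl y).zpow_zpow k l
    set j := ju + ja
    have hu' : u ^ p ^ (j + 1) = 1 := by
      rw [show j + 1 = ju + (ja + 1) by omega, pow_add, pow_mul, hju, one_pow]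
    have ha' : a ^ p ^ (j + 1) = 1 := by
      rw [show j + 1 = ja + (ju + 1) by omega, pow_add, pow_mul, hja, one_pow]
    obtain ⟨D, hDp, hDc⟩ := exists_transversal hp.out σ (j := j + 1) (Equiv.ext fun g => by
      rw [hσi, hu', inv_one, one_mul, mul_one]; rfl)
    set d : G → ℂ := fun g => if g ∈ D then F g else 0
    set x := lm (dlt u) * rt a
    set Sx := lm (dlt s) * rt w
    have hd : ∀ g, d g ∈ v.O := fun g => by
      simp only [d]
      split_ifs
      exacts [hFm g, zero_mem _]
    have hcs : Commute s u := (hmemC s).1 hs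
    have key := trace_eq_zero (v := v) (j := j) (m := orderOf s * orderOf w) (x := x) (S := Sx)
      (D := lm d) (f := lm F) (fun h => (hp.out.dvd_mul.1 h).elim hsr hwreg)
      (mul_mem (lm_mem (dlt_mem u)) (rt_mem a)) (mul_mem (lm_mem (dlt_mem s)) (rt_mem w))
      (lm_mem hd) (lm_mem hFm) ?_ ?_ (by rw [lm_mul, hFF]) ?_ ?_ ?_ ?_ ?_
    · rw [show x * Sx * lm F = lm (conv (dlt (u * s)) F) * rt (w * a) by
        simp only [x, Sx]
        rw [show lm (conv (dlt (u * s)) F) = lm (dlt u) * lm (dlt s) * lm F by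
          rw [lm_mul, lm_mul_dlt, lm_mul], ← rt_mul]
        simp only [mul_assoc]
        rw [← (lm_comm_rt F w).eq, ← mul_assoc (rt a) (lm (dlt s)), ← (lm_comm_rt (dlt s) a).eq]
        simp only [mul_assoc]
        rw [← mul_assoc (rt a) (lm F), ← (lm_comm_rt F a).eq]
        simp only [mul_assoc],
        trace_lm_rt, hF, ← conv_comm_cls (isCls_aS hS.sub) e, ← hcomm.eq, ← haw] at key
      rw [← key, conv_dlt_left]
      simp only [conv]
      rw [sum_comm (s := (univ : Finset G)) (t := (univ : Finset G))]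
      simp only [← mul_sum]
      rw [he, sum_ext0 C (aS T) fun h => ∑ g, aS S (h⁻¹ * ((u * s)⁻¹ * (g * y⁻¹ * g⁻¹)))]
      simp only [sum_mul]
      rw [sum_comm]
      refine sum_congr rfl fun c _ => ?_
      rw [sum_congr rfl fun g _ => show aS S ((c : G)⁻¹ * ((u * s)⁻¹ * (g * y⁻¹ * g⁻¹))) =
        aS S ((u * s * c)⁻¹ * (g * y⁻¹ * g⁻¹)) by
          rw [mul_inv_rev (u * s) (c : G), mul_assoc (c : G)⁻¹],
        sum_aS_conj hS.sub, mul_sum]
      exact sum_congr rfl fun χ _ => by ring
    · simp only [x]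
      rw [(lm_comm_rt _ _).mul_pow, lm_dlt_pow, rt_pow, hu', ha', lm_dlt_one, rt_one, one_mul]
    · simp only [Sx]
      rw [(lm_comm_rt _ _).mul_pow, lm_dlt_pow, rt_pow,
        orderOf_dvd_iff_pow_eq_one.1 (dvd_mul_right _ _),
        orderOf_dvd_iff_pow_eq_one.1 (dvd_mul_left _ _), lm_dlt_one, rt_one, one_mul]
    · refine Commute.mul_left (Commute.mul_right ?_ (lm_comm_rt _ _))
        (Commute.mul_right (lm_comm_rt _ _).symm ?_)
      · show lm (dlt u) * lm (dlt s) = lm (dlt s) * lm (dlt u)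
        rw [lm_mul, lm_mul, lm_mul_dlt, lm_mul_dlt, hcs.eq]
      · show rt a * rt w = rt w * rt a
        rw [rt_mul, rt_mul, hcomm.eq]
    · refine Commute.mul_left ?_ (lm_comm_rt _ _).symm
      show lm (dlt u) * lm F = lm F * lm (dlt u)
      rw [lm_mul, lm_mul, hFcomm u huC]
    · refine Commute.mul_left ?_ (lm_comm_rt _ _).symm
      show lm (dlt s) * lm F = lm F * lm (dlt s)
      rw [lm_mul, lm_mul, hFcomm s hs]
    · simp only [x]
      rw [(lm_comm_rt _ _).mul_pow, lm_dlt_pow, rt_pow]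
      refine Commute.mul_left ?_ (lm_comm_rt _ _).symm
      show lm (dlt (u ^ p)) * lm d = lm d * lm (dlt (u ^ p))
      rw [lm_mul, lm_mul, conv_dlt_left, conv_dlt_right]
      congr 1
      funext g
      have h1 := hDp (g * (u ^ p)⁻¹)
      have h2 := hFi p (g * (u ^ p)⁻¹)
      have e1 : (σ ^ p) (g * (u ^ p)⁻¹) = (u ^ p)⁻¹ * g := by rw [hσi]; group
      rw [e1] at h1 h2
      simp only [d, h1, h2]
    · have hT' : ∑ i ∈ range p, x ^ i * lm d * x ^ (p ^ (j + 1) - i) =
          lm fun g => if g ∈ C then 0 else F g := by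
        have hi' : ∀ i ∈ range p, i ≤ p ^ (j + 1) := fun i hi =>
          (le_of_lt (mem_range.1 hi)).trans (Nat.le_self_pow (by omega) p)
        rw [sum_congr rfl fun i hi => show x ^ i * lm d * x ^ (p ^ (j + 1) - i) =
            lm fun g => d ((σ ^ i) g) by
          have hb : u ^ i * u ^ (p ^ (j + 1) - i) = 1 := by
            rw [← pow_add, Nat.add_sub_cancel' (hi' i hi), hu']
          simp only [x]
          rw [(lm_comm_rt _ _).mul_pow, (lm_comm_rt _ _).mul_pow, lm_dlt_pow, lm_dlt_pow, rt_pow,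
            rt_pow, mul_assoc (lm (dlt (u ^ i))) (rt (a ^ i)), ← (lm_comm_rt d (a ^ i)).eq]
          simp only [mul_assoc]
          rw [← mul_assoc (rt (a ^ i)), ← (lm_comm_rt _ _).eq, mul_assoc, rt_mul, ← pow_add,
            Nat.sub_add_cancel (hi' i hi), ha', rt_one, mul_one, lm_mul, lm_mul, conv_dlt_right,
            conv_dlt_left, eq_inv_of_mul_eq_one_right hb, inv_inv]
          congr 1
          funext g
          rw [hσi, mul_assoc]]
        ext g h
        rw [Matrix.sum_apply]
        simp only [lm_apply]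
        generalize g * h⁻¹ = k
        have hc := hDc k
        simp only [hfix] at hc
        simp only [d, hFi]
        rw [← sum_filter, sum_const, hc]
        split_ifs <;> simp
      have hsub : v.rm (lm fun g => if g ∈ C then 0 else F g) = v.rm (lm F) := by
        ext g h
        simp only [Place.rm, Matrix.map_apply, lm_apply]
        split_ifs with hg
        · rw [hsmall _ hg, v.r_zero]
        · rfl
      have hm' : (lm fun g => if g ∈ C then 0 else F g) ∈ v.mat G := lm_mem fun g => by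
        split_ifs
        exacts [zero_mem _, hFm g]
      have hFm' := lm_mem hFm
      rw [hT', rm_mul (mul_mem hFm' hm') hFm', rm_mul hFm' hm', hsub, ← rm_mul hFm' hFm', lm_mul,
        hFF, ← rm_mul hFm' hFm', lm_mul, hFF]
  have hli : FA.FrobeniusGroups.pairing
      (fun y => ∑ φ ∈ S, (∑ c : C, aS T c * φ (u * s * c)) * φ y) χ = 0 := by
    simp [FA.FrobeniusGroups.pairing, hzero]
  rw [FA.FrobeniusGroups.pairing_sum_left S _ fun φ => φ, sum_congr rfl fun φ hφ => by
    rw [pairing_irr (hS.sub hφ) (hS.sub hχ)]] at hli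
  simpa [hχ] using hli

end FA.PrincipalBlock

end
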